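import Fermat.Agent.Ribet.H704.CoreOutSpec
import Fermat.Agent.Ribet.H39.TameSplit

/-!
# RIBET row 38, WALL-p, CoreOut: TAME reduces to the INERTIA-FIXED case (helper967)

Target: `H704.CoreOut.TameStatement` (classes fixed by `I₁ = {σ ∈ I : σ = 1 on μ_p}`).

`tame_of_fixed : TameFixedStatement → H704.CoreOut.TameStatement`, where `TameFixedStatement`
is the same statement for classes fixed by the WHOLE inertia group `I` at `A`: such a class is
defined over the inertia field `ℚ̄^I` (absolutely unramified: uniformiser `p`, unit pair of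
exponent `12`), so NO tame level `ℚ̄^{I₁}` and no ramification index `p - 1` is needed.

Proof.
* `exists_fixed_translate` (cocycle trick): `σ x = x + n(σ) t`, `σ t = χ(σ) t` on `I`, `x` fixed
  by `I₁`.  Choose `σ₀ ∈ I` with `χ(σ₀) ≢ 1 (mod p)` (`H39.exists_inertia_cycloAt`) and `z` with
  `n(σ₀) + z (χ(σ₀) - 1) ≡ 0`; then `x' = x + z t` is fixed by `σ₀`, and by every `τ ∈ I`:
  the commutator `ρ = τ σ₀ τ⁻¹ σ₀⁻¹` lies in `I₁`, so it fixes `x'`, and `τ σ₀ = ρ σ₀ τ` applied to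
  `x'` gives `(χ(σ₀) - 1) (τ x' - x') = 0`.
* `t ∈ splitPart` (`H39.mem_splitPart_of_cyclo`), so `-z t` has a Kummer generator `g` with
  `SplitGen g` (`H884.mem_splitSet_of_mem_splitPart`), in particular `NodeGen g`.
* `SlopeProp x'` with `(f', D, G', n, a, b)` gives `SlopeProp x` with `(f' g, D, G' gⁿ, n, a, b)`.
-/

set_option autoImplicit false
set_option synthInstance.maxHeartbeats 400000
set_option maxHeartbeats 1000000
set_option linter.unusedSectionVars false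

noncomputable section

namespace Fermat.Agent.Ribet.H967.Tame

open AlgebraicCurve ModularCurve HahnSeries
open Fermat.Agent.S24 Fermat.Agent.A2.H708 Fermat.Agent.A2.H528
open Fermat.Agent.Ribet.Spec Fermat.Agent.Ribet.H944.Wall Fermat.Agent.Ribet.H884
open Fermat.Agent.Ribet.H704 Fermat.Agent.Ribet.H704.CoreOut

local notation "Qb" => AlgebraicClosure ℚ

/-- **TAME, inertia-fixed core**: `SlopeProp` for new eigenclasses fixed by the whole inertia
group at `A` (non-Eisenstein eigenvalues). -/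
def TameFixedStatement : Prop :=
  ∀ (p M' : ℕ) [NeZero M'] [NeZero p] [NeZero (p * M')], p.Prime → 5 ≤ p → ¬ p ∣ M' →
    ∀ A : ValuationSubring Qb, A.LiesOverPrime p →
    ∀ (S : Finset ℕ) (a : ℕ → ℤ), NonEisAway p a → ∀ x : JZero (p * M'),
      IsNewTors p M' x → EigenAt (p * M') S a x →
      (∀ σ ∈ A.inertiaSubgroupIn ℚ, σ • x = x) →
      SlopeProp p M' A x

/-! ## The cyclotomic character on commutators -/

/-- A commutator acts trivially on `μ_p`. -/
theorem cycloAt_commutator967 {p : ℕ} {σ τ : GQ} {c d : ℕ} (hσ : CycloAt p σ c)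
    (hτ : CycloAt p τ d) : CycloAt p (τ * σ * τ⁻¹ * σ⁻¹) 1 := by
  intro ζ hζ
  set ξ : Qb := τ⁻¹ (σ⁻¹ ζ) with hξdef
  have hξ : ξ ^ p = 1 := by
    rw [hξdef, ← map_pow, ← map_pow, hζ, map_one, map_one]
  have h1 : ζ = σ (τ ξ) := by
    rw [hξdef]
    show ζ = σ (τ (τ⁻¹ (σ⁻¹ ζ)))
    rw [← AlgEquiv.mul_apply τ τ⁻¹, mul_inv_cancel, AlgEquiv.one_apply,
      ← AlgEquiv.mul_apply σ σ⁻¹, mul_inv_cancel, AlgEquiv.one_apply]
  have h2 : (τ * σ * τ⁻¹ * σ⁻¹) ζ = τ (σ ξ) := rfl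
  rw [h2, pow_one, hσ ξ hξ, map_pow, hτ ξ hξ]
  conv_rhs => rw [h1, hτ ξ hξ, map_pow, hσ ξ hξ]
  rw [← pow_mul, ← pow_mul, mul_comm]

/-! ## The cocycle trick -/

section Cocycle

variable {p M' : ℕ} [NeZero M'] [NeZero p] [NeZero (p * M')]

/-- **Cocycle trick**: a class fixed by `I₁` on which `I` acts by translations along a line of
multiplicative type has a translate along that line which is fixed by `I`. -/
theorem exists_fixed_translate (hp : p.Prime) (hp2 : p ≠ 2) (A : ValuationSubring Qb)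
    (hA : A.LiesOverPrime p) (x t : JZero (p * M')) (hpt : p • t = 0)
    (hχ : ∀ σ ∈ A.inertiaSubgroupIn ℚ, ∀ c : ℕ, CycloAt p σ c → σ • t = c • t)
    (hsh : ∀ σ ∈ A.inertiaSubgroupIn ℚ, ∃ n : ℕ, σ • x = x + n • t)
    (htame : ∀ σ ∈ A.inertiaSubgroupIn ℚ, CycloAt p σ 1 → σ • x = x) :
    ∃ z : ℤ, ∀ σ ∈ A.inertiaSubgroupIn ℚ, σ • (x + z • t) = x + z • t := by
  obtain ⟨σ₀, hσ₀, c₀, hc₀, hnd⟩ := Fermat.Agent.Ribet.H39.exists_inertia_cycloAt p hp hp2 A hA
  obtain ⟨n₀, hn₀⟩ := hsh σ₀ hσ₀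
  have hcop : IsCoprime ((c₀ : ℤ) - 1) (p : ℤ) := by
    have hpp : Prime (p : ℤ) := Nat.prime_iff_prime_int.mp hp
    exact (IsCoprime.symm ((Prime.coprime_iff_not_dvd hpp).mpr hnd))
  obtain ⟨u, v, huv⟩ := hcop
  have hpt' : ∀ k : ℤ, (k * (p : ℤ)) • t = 0 := by
    intro k
    rw [mul_smul, natCast_zsmul, hpt, smul_zero]
  -- multiples of `t` killed by `c₀ - 1` vanish
  have hkill : ∀ m : ℤ, (m * ((c₀ : ℤ) - 1)) • t = 0 → m • t = 0 := by
    intro m hm
    have e : m = u * (m * ((c₀ : ℤ) - 1)) + (v * m) * (p : ℤ) := by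
      linear_combination (-m) * huv
    have e' : m • t = (u * (m * ((c₀ : ℤ) - 1)) + (v * m) * (p : ℤ)) • t :=
      congrArg (fun k : ℤ => k • t) e
    rw [e', add_zsmul, mul_smul u, hm, smul_zero, hpt', add_zero]
  have hsz : ∀ (σ : GQ) (k : ℤ) (y : JZero (p * M')), σ • (k • y) = k • (σ • y) :=
    fun σ k y => map_zsmul (DistribSMul.toAddMonoidHom (JZero (p * M')) σ) k y
  -- the action of `I` on integer multiples of `t`
  have hact : ∀ σ ∈ A.inertiaSubgroupIn ℚ, ∀ c : ℕ, CycloAt p σ c → ∀ m : ℤ,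
      σ • (m • t) = (m * (c : ℤ)) • t := by
    intro σ hσ c hc m
    rw [hsz, hχ σ hσ c hc, mul_smul, natCast_zsmul]
  set z : ℤ := -(n₀ : ℤ) * u with hz
  have hσ₀x' : σ₀ • (x + z • t) = x + z • t := by
    rw [smul_add, hn₀, hact σ₀ hσ₀ c₀ hc₀, add_assoc]
    congr 1
    rw [← natCast_zsmul, ← add_zsmul]
    have e : (n₀ : ℤ) + z * (c₀ : ℤ) = z + ((n₀ : ℤ) * v) * (p : ℤ) := by
      rw [hz]
      linear_combination (-(n₀ : ℤ)) * huv
    rw [e, add_zsmul, hpt', add_zero]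
  refine ⟨z, fun τ hτ => ?_⟩
  obtain ⟨n, hn⟩ := hsh τ hτ
  obtain ⟨d, hd⟩ : ∃ d : ℕ, CycloAt p τ d := ⟨_, Fermat.Agent.Ribet.H39.cycloAt_cycloPow p τ⟩
  set m : ℤ := (n : ℤ) + z * (d : ℤ) - z with hm
  have hτx' : τ • (x + z • t) = (x + z • t) + m • t := by
    rw [smul_add, hn, hact τ hτ d hd, add_assoc, add_assoc]
    congr 1
    rw [← natCast_zsmul, ← add_zsmul, ← add_zsmul]
    congr 1
    rw [hm]
    ring
  -- the commutator
  set ρ : GQ := τ * σ₀ * τ⁻¹ * σ₀⁻¹ with hρ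
  have hρI : ρ ∈ A.inertiaSubgroupIn ℚ :=
    mul_mem (mul_mem (mul_mem hτ hσ₀) (inv_mem hτ)) (inv_mem hσ₀)
  have hρ1 : CycloAt p ρ 1 := cycloAt_commutator967 hc₀ hd
  have hρx : ρ • x = x := htame ρ hρI hρ1
  have hρt : ∀ k : ℤ, ρ • (k • t) = k • t := by
    intro k
    rw [hact ρ hρI 1 hρ1]
    simp
  have hcomm : τ * σ₀ = ρ * σ₀ * τ := by
    rw [hρ]
    group
  have h1 : (τ * σ₀) • (x + z • t) = (x + z • t) + m • t := by
    rw [mul_smul, hσ₀x', hτx']
  have h2 : (ρ * σ₀ * τ) • (x + z • t) = (x + z • t) + (m * (c₀ : ℤ)) • t := by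
    rw [mul_smul, mul_smul, hτx', smul_add σ₀, hσ₀x', hact σ₀ hσ₀ c₀ hc₀, smul_add ρ,
      smul_add ρ, hρx, hρt, hρt]
  rw [hcomm, h2] at h1
  have h3 : (m * (c₀ : ℤ)) • t = m • t := add_left_cancel h1
  have h4 : (m * ((c₀ : ℤ) - 1)) • t = 0 := by
    rw [mul_sub, mul_one, sub_smul, h3, sub_self]
  rw [hτx', hkill m h4, add_zero]

end Cocycle

/-! ## Transfer of `SlopeProp` -/

section Transfer

variable {p M' : ℕ} [NeZero M'] [NeZero p] [NeZero (p * M')] {A : ValuationSubring Qb}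

/-- `PDivSeries ⟹ PDivFin`. -/
theorem pDivFin_of_pDivSeries967 {k : Type} [Field k] {r : LaurentSeries k}
    (h : PDivSeries p M' r) : PDivFin p M' r := by
  obtain ⟨g, hg, hg0, hdiv⟩ := h
  exact ⟨g, hg, hg0, fun Q _ => hdiv Q⟩

/-- `SplitGen ⟹ NodeGen`. -/
theorem nodeGen_of_splitGen967 {g : FF (p * M')} (h : SplitGen p M' A g) :
    NodeGen p M' A g := by
  obtain ⟨r₁, r₂, h1, h2, h3, h4, -, -⟩ := h
  exact ⟨r₁, r₂, h1, h2, pDivFin_of_pDivSeries967 h3, pDivFin_of_pDivSeries967 h4⟩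

/-- `SlopeProp` is invariant under translation by the split part. -/
theorem slopeProp_add_of_mem_splitPart {x y : JZero (p * M')} (hx : SlopeProp p M' A x)
    (hy : y ∈ splitPart p M' A) : SlopeProp p M' A (x + y) := by
  obtain ⟨f, D, G, n, a, b, hK, hD, hD0, hn, hrel, hG⟩ := hx
  obtain ⟨g, hgK, hgS⟩ := mem_splitSet_of_mem_splitPart hy
  refine ⟨f * g, D, G * g ^ n, n, a, b, hK.mul hgK, hD, hD0, hn, ?_,
    hG.mul ((nodeGen_of_splitGen967 hgS).pow n)⟩
  rw [mul_pow]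
  linear_combination (g ^ n) * hrel

end Transfer

/-! ## The reduction -/

/-- **TAME from its inertia-fixed core.** -/
theorem tame_of_fixed (hcore : TameFixedStatement) : TameStatement := by
  intro p M' _ _ _ hp hp5 hpM A hA S a hNE x t hx hex ht het hχ hsh hpeu htame
  have hp2 : p ≠ 2 := by omega
  obtain ⟨z, hz⟩ := exists_fixed_translate hp hp2 A hA x t ht.1 hχ hsh htame
  have htS : t ∈ splitPart p M' A :=
    Fermat.Agent.Ribet.H39.mem_splitPart_of_cyclo p M' hp hp2 hpM A hA t ht.1 hχ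
  -- `x' = x + z t` is a new eigenclass
  have hx' : IsNewTors p M' (x + z • t) := by
    obtain ⟨h1, h2, h3⟩ := hx
    obtain ⟨k1, k2, k3⟩ := ht
    refine ⟨?_, ?_, ?_⟩
    · rw [nsmul_add, h1, smul_comm (p : ℕ) z t, k1, smul_zero, add_zero]
    · rw [map_add, map_zsmul, h2, k2, smul_zero, add_zero]
    · rw [map_add, map_zsmul, h3, k3, smul_zero, add_zero]
  have hex' : EigenAt (p * M') S a (x + z • t) := by
    intro ℓ hℓ
    rw [map_add, map_zsmul, hex ℓ hℓ, het ℓ hℓ, zsmul_add, smul_comm z]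
  have hS' := hcore p M' hp hp5 hpM A hA S a hNE (x + z • t) hx' hex' hz
  have h := slopeProp_add_of_mem_splitPart hS'
    ((splitPart p M' A).neg_mem ((splitPart p M' A).zsmul_mem htS z))
  rwa [add_neg_cancel_right] at h

end Fermat.Agent.Ribet.H967.Tame

end
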