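import Mathlib

/-!
# RIBET / ELOC-ord (helper967): linear algebra of a module of cardinality `≤ p ^ 2` over `ZMod p`
-/

set_option autoImplicit false

namespace Fermat.Agent.Ribet.H967

variable {p : ℕ} [hpF : Fact p.Prime] {V : Type*} [AddCommGroup V] [Module (ZMod p) V]

theorem zmod_smul_eq_nsmul (c : ZMod p) (x : V) : c • x = c.val • x := by
  conv_lhs => rw [← ZMod.natCast_zmod_val c]
  exact Nat.cast_smul_eq_nsmul (ZMod p) c.val x

theorem zmod_natCast_smul (n : ℕ) (x : V) : ((n : ℕ) : ZMod p) • x = n • x :=
  Nat.cast_smul_eq_nsmul (ZMod p) n x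

/-- Two independent vectors span a `ZMod p`-module with at most `p ^ 2` elements. -/
theorem span_pair_eq_top [Finite V] (hcard : Nat.card V ≤ p ^ 2) {t s : V} (ht : t ≠ 0)
    (hs : s ∉ Submodule.span (ZMod p) {t}) :
    Submodule.span (ZMod p) {t, s} = ⊤ := by
  have hp := hpF.out
  have hli : LinearIndependent (ZMod p) ![t, s] := by
    rw [LinearIndependent.pair_iff' ht]
    intro a ha
    exact hs (Submodule.mem_span_singleton.mpr ⟨a, ha⟩)
  have hrange : Set.range ![t, s] = {t, s} := by
    simp [Matrix.range_cons, Set.pair_comm]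
  have h2 : Module.finrank (ZMod p) (Submodule.span (ZMod p) (Set.range ![t, s])) = 2 := by
    rw [finrank_span_eq_card hli]
    simp
  cases nonempty_fintype V
  have h3 : Fintype.card V = p ^ Module.finrank (ZMod p) V := by
    rw [Module.card_eq_pow_finrank (K := ZMod p), ZMod.card]
  have h4 : Module.finrank (ZMod p) V ≤ 2 := by
    rw [Nat.card_eq_fintype_card, h3] at hcard
    exact (Nat.pow_le_pow_iff_right hp.one_lt).mp hcard
  apply Submodule.eq_top_of_finrank_eq
  have h5 := Submodule.finrank_le (Submodule.span (ZMod p) (Set.range ![t, s]))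
  rw [← hrange]
  omega

/-- A proper subgroup-like subset containing a nonzero vector `t` is contained in the line
through `t`: if `L` is closed under addition and scalars, contains `t ≠ 0` and misses some
vector, then every element of `L` is a multiple of `t`. -/
theorem mem_span_singleton_of_proper [Finite V] (hcard : Nat.card V ≤ p ^ 2)
    (L : Submodule (ZMod p) V) {t : V} (ht : t ≠ 0) (htL : t ∈ L) {P : V} (hP : P ∉ L)
    {s : V} (hs : s ∈ L) : s ∈ Submodule.span (ZMod p) {t} := by
  by_contra hcon
  have htop := span_pair_eq_top hcard ht hcon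
  apply hP
  have hle : Submodule.span (ZMod p) {t, s} ≤ L := by
    rw [Submodule.span_le]
    intro x hx
    rcases hx with rfl | rfl
    · exact htL
    · exact hs
  rw [htop] at hle
  exact hle Submodule.mem_top

end Fermat.Agent.Ribet.H967
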