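import Fermat.Agent.Ribet.H967.ELocOrdB
import Fermat.Agent.Ribet.H967.LinTors

/-!
# RIBET / ELOC-ord (helper967): `ELOCOrdGoodStatement`

`elocOrdGood : Fermat.Agent.Ribet.H944.Wall.ELOCOrdGoodStatement`.

`W` with good reduction at the odd prime `p`, `A` over `p`, `I` the inertia group, and suppose
`OrdinaryInertiaAt`.  If `I` acts trivially on `E[p]` take `t = 0`.  Otherwise let
`t = σ₁ x₁ - x₁ ≠ 0`; it lies in `L = E[p] ∩ E₁`, which is a proper subgroup (H187: there is an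
integral point in `E[p]`), so `L = ⟨t⟩`.
(b) `σ x - x ∈ L` (good reduction);  (a) from (b) and `OrdinaryInertiaAt`;
(c) `peu_core`.
-/

set_option autoImplicit false

open WeierstrassCurve WeierstrassCurve.Affine
open Fermat.Agent.S51.Five (xc xc_galois_smul)
open Fermat.Agent.S05.SameRed (IntegralCoeffs InKer inKer_zero inKer_some)
open Fermat.Agent.Ribet.Spec (GQ)
open Fermat.Agent.Ribet.H944.Wall

namespace Fermat.Agent.Ribet.H967

local notation "Qb" => AlgebraicClosure ℚ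

section

variable {W : WeierstrassCurve ℤ} {p : ℕ}

theorem gal_smul_zmod_smul [Fact p.Prime] (σ : GQ) (c : ZMod p)
    (x : ETorsion (W.map (Int.castRingHom ℚ)) p) : σ • (c • x) = c • (σ • x) := by
  rw [zmod_smul_eq_nsmul, zmod_smul_eq_nsmul, smul_comm]

/-- The kernel of reduction inside `E[p]`, as a `ZMod p`-submodule. -/
def kerSubmodule (W : WeierstrassCurve ℤ) (p : ℕ) [Fact p.Prime] (A : ValuationSubring Qb) :
    Submodule (ZMod p) (ETorsion (W.map (Int.castRingHom ℚ)) p) where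
  carrier := {x | InKer ((W.map (Int.castRingHom ℚ))⁄Qb) A.valuation
    (x : ((W.map (Int.castRingHom ℚ))⁄Qb).Point)}
  add_mem' := by
    intro a b ha hb
    have h := Fermat.Agent.Lib.Red.H382.inKer_add (v := A.valuation)
      (integralCoeffs_baseChange W A) ha hb
    exact h
  zero_mem' := by
    show InKer ((W.map (Int.castRingHom ℚ))⁄Qb) A.valuation 0
    exact inKer_zero
  smul_mem' := by
    intro c x hx
    rw [zmod_smul_eq_nsmul]
    have h := Fermat.Agent.S13.H64.inKer_nsmul (v := A.valuation)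
      (integralCoeffs_baseChange W A) hx c.val
    exact h

theorem mem_kerSubmodule [Fact p.Prime] {A : ValuationSubring Qb}
    {x : ETorsion (W.map (Int.castRingHom ℚ)) p} :
    x ∈ kerSubmodule W p A ↔ InKer ((W.map (Int.castRingHom ℚ))⁄Qb) A.valuation
      (x : ((W.map (Int.castRingHom ℚ))⁄Qb).Point) := Iff.rfl

end

/-- **ELOC-ord, good reduction.** -/
theorem elocOrdGood : ELOCOrdGoodStatement := by
  intro W p hΔ hp hp2 hgood A hA hord
  have hpF : Fact p.Prime := ⟨hp⟩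
  have hell := Fermat.Agent.Ribet.H187.isElliptic_baseChange W hΔ
  have hW := integralCoeffs_baseChange W A
  have hodd : Odd p := hp.odd_of_ne_two hp2
  have hp3 : 3 ≤ p := by
    have := hp.two_le
    omega
  have hgood' : ¬ (p : ℤ) ∣ W.Δ := hgood
  obtain ⟨hnt, hfin, hcard⟩ :=
    Fermat.Agent.S13.H891.T1_odd ((W.map (Int.castRingHom ℚ))⁄Qb) p hp3 hodd
  by_cases htriv : ∀ σ ∈ A.inertiaSubgroupIn ℚ,
      ∀ x : ETorsion (W.map (Int.castRingHom ℚ)) p, σ • x = x
  · refine ⟨0, fun σ _ c _ => ?_, fun x σ hσ => ⟨0, ?_⟩, fun x σ hσ => htriv σ hσ.1 x⟩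
    · rw [smul_zero, nsmul_zero]
    · rw [htriv σ hσ x, zero_nsmul, add_zero]
  push Not at htriv
  obtain ⟨σ₁, hσ₁, x₁, hx₁⟩ := htriv
  -- the consequence of `OrdinaryInertiaAt`
  have hordy : ∀ τ ∈ A.inertiaSubgroupIn ℚ, ∀ c : ℕ, CycloAt p τ c →
      ∀ x : ETorsion (W.map (Int.castRingHom ℚ)) p,
        τ • (τ • x - x) = c • (τ • x - x) := by
    intro τ hτ c hc x
    have h1 : τ • τ • x = (c + 1) • τ • x - c • x := eq_sub_of_add_eq (hord τ hτ c hc x)
    rw [smul_sub, h1, nsmul_sub, add_nsmul, one_nsmul]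
    abel
  -- an integral point
  have heig : ∀ τ ∈ A.inertiaSubgroupIn ℚ,
      ∃ P : ((W.map (Int.castRingHom ℚ))⁄Qb).Point, P ≠ 0 ∧ p • P = 0 ∧
        ∃ a : ℤ, τ • P = a • P := by
    intro τ hτ
    obtain ⟨c, hc⟩ := exists_cycloAt hp τ
    by_cases h : ∀ x : ETorsion (W.map (Int.castRingHom ℚ)) p, τ • x = x
    · obtain ⟨x, hx⟩ := exists_ne (0 : ETorsion (W.map (Int.castRingHom ℚ)) p)
      refine ⟨x.1, fun h0 => hx (Subtype.ext h0),
        Fermat.Agent.S13.H891.nsmul_eq_zero_of_mem_torsionBy p x, 1, ?_⟩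
      rw [one_smul]
      exact congrArg Subtype.val (h x)
    · push Not at h
      obtain ⟨x, hx⟩ := h
      refine ⟨(τ • x - x : ETorsion (W.map (Int.castRingHom ℚ)) p).1, ?_,
        Fermat.Agent.S13.H891.nsmul_eq_zero_of_mem_torsionBy p _, (c : ℤ), ?_⟩
      · intro h0
        exact hx (sub_eq_zero.mp (Subtype.ext h0))
      · rw [natCast_zsmul]
        exact congrArg Subtype.val (hordy τ hτ c hc x)
  obtain ⟨P₁, hP₁0, hP₁p, hP₁A⟩ :=
    Fermat.Agent.Ribet.H187.exists_ordinary_point_of_eigen hΔ hp hp2 A hA heig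
  have hP₁K : ¬ InKer ((W.map (Int.castRingHom ℚ))⁄Qb) A.valuation P₁ := by
    rcases P₁ with _ | ⟨x, y, h⟩
    · exact absurd rfl hP₁0
    · rw [inKer_some, not_lt]
      exact (A.valuation_le_one_iff x).mpr hP₁A
  have hP₁mem : P₁ ∈ Submodule.torsionBy ℤ ((W.map (Int.castRingHom ℚ))⁄Qb).Point
      ((p : ℕ) : ℤ) := by
    rw [Submodule.mem_torsionBy_iff, natCast_zsmul]
    exact hP₁p
  -- the generator
  set t : ETorsion (W.map (Int.castRingHom ℚ)) p := σ₁ • x₁ - x₁ with ht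
  have ht0 : t ≠ 0 := sub_ne_zero.mpr hx₁
  have hsubL : ∀ (σ : GQ), σ ∈ A.inertiaSubgroupIn ℚ →
      ∀ x : ETorsion (W.map (Int.castRingHom ℚ)) p, σ • x - x ∈ kerSubmodule W p A := by
    intro σ hσ x
    exact inKer_smul_sub hp A hA hgood' hσ x.1
  have htL : t ∈ kerSubmodule W p A := hsubL σ₁ hσ₁ x₁
  have hP₁L : (⟨P₁, hP₁mem⟩ : ETorsion (W.map (Int.castRingHom ℚ)) p) ∉ kerSubmodule W p A :=
    hP₁K
  have hL : ∀ s ∈ kerSubmodule W p A, ∃ c : ZMod p, c • t = s := by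
    intro s hs
    exact Submodule.mem_span_singleton.mp
      (mem_span_singleton_of_proper hcard (kerSubmodule W p A) ht0 htL hP₁L hs)
  -- inertia acts on the line
  have hline : ∀ σ ∈ A.inertiaSubgroupIn ℚ, ∃ a : ZMod p, σ • t = a • t := by
    intro σ hσ
    have : σ • t ∈ kerSubmodule W p A := (inKer_smul_iff A hσ t.1).mpr htL
    obtain ⟨a, ha⟩ := hL _ this
    exact ⟨a, ha.symm⟩
  -- (a), nontrivial case
  have hN : ∀ σ ∈ A.inertiaSubgroupIn ℚ, ∀ c : ℕ, CycloAt p σ c →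
      (∃ x : ETorsion (W.map (Int.castRingHom ℚ)) p, σ • x ≠ x) →
      σ • t = ((c : ℕ) : ZMod p) • t := by
    intro σ hσ c hc ⟨x, hx⟩
    obtain ⟨b, hb⟩ := hL _ (hsubL σ hσ x)
    have hb0 : b ≠ 0 := by
      rintro rfl
      rw [zero_smul] at hb
      exact hx (sub_eq_zero.mp hb.symm)
    have h1 := hordy σ hσ c hc x
    rw [← hb, gal_smul_zmod_smul, smul_comm c b t] at h1
    have h2 : σ • t = c • t := smul_right_injective _ hb0 h1
    rw [h2, zmod_natCast_smul]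
  -- (a)
  have hA' : ∀ σ ∈ A.inertiaSubgroupIn ℚ, ∀ c : ℕ, CycloAt p σ c →
      σ • t = ((c : ℕ) : ZMod p) • t := by
    intro σ hσ c hc
    by_cases h : ∃ x : ETorsion (W.map (Int.castRingHom ℚ)) p, σ • x ≠ x
    · exact hN σ hσ c hc h
    · push Not at h
      obtain ⟨c₁, hc₁⟩ := exists_cycloAt hp σ₁
      have h1 := hN (σ * σ₁) (Subgroup.mul_mem _ hσ hσ₁) (c * c₁) (cycloAt_mul hc hc₁)
        ⟨x₁, by rw [mul_smul, h]; exact hx₁⟩
      have h2 := hN σ₁ hσ₁ c₁ hc₁ ⟨x₁, hx₁⟩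
      rw [mul_smul, h, h2] at h1
      have h3 : ((c₁ : ℕ) : ZMod p) = ((c * c₁ : ℕ) : ZMod p) :=
        smul_left_injective (ZMod p) ht0 h1
      rw [Nat.cast_mul] at h3
      have h4 : ((c : ℕ) : ZMod p) = 1 := by
        have h5 : (((c : ℕ) : ZMod p) - 1) * ((c₁ : ℕ) : ZMod p) = 0 := by
          rw [sub_mul, one_mul, ← h3, sub_self]
        rcases mul_eq_zero.mp h5 with h6 | h6
        · exact sub_eq_zero.mp h6
        · exact absurd h6 (cycloAt_natCast_ne_zero hp hc₁)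
      rw [h4, one_smul, h]
  -- (b)
  have hB : ∀ x : ETorsion (W.map (Int.castRingHom ℚ)) p, ∀ σ ∈ A.inertiaSubgroupIn ℚ,
      ∃ n : ℕ, σ • x = x + n • t := by
    intro x σ hσ
    obtain ⟨b, hb⟩ := hL _ (hsubL σ hσ x)
    refine ⟨b.val, ?_⟩
    rw [← zmod_smul_eq_nsmul, hb]
    abel
  refine ⟨t, ?_, hB, ?_⟩
  · intro σ hσ c hc
    rw [hA' σ hσ c hc, zmod_natCast_smul]
  · intro x σ hσ
    have hσI := hσ.1
    have hσc := cycloAt_one_of_peuFixes hp hσ
    have hfix : ∀ τ ∈ A.inertiaSubgroupIn ℚ, CycloAt p τ 1 → τ • t = t := by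
      intro τ hτ hc
      rw [hA' τ hτ 1 hc, Nat.cast_one, one_smul]
    by_cases hx : x ∈ kerSubmodule W p A
    · obtain ⟨c, rfl⟩ := hL x hx
      rw [gal_smul_zmod_smul, hfix σ hσI hσc]
    · apply Subtype.ext
      have htp : p • (t : ((W.map (Int.castRingHom ℚ))⁄Qb).Point) = 0 :=
        Fermat.Agent.S13.H891.nsmul_eq_zero_of_mem_torsionBy p t
      have hxp : p • (x : ((W.map (Int.castRingHom ℚ))⁄Qb).Point) = 0 :=
        Fermat.Agent.S13.H891.nsmul_eq_zero_of_mem_torsionBy p x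
      have ht0' : (t : ((W.map (Int.castRingHom ℚ))⁄Qb).Point) ≠ 0 := fun h0 =>
        ht0 (Subtype.ext h0)
      refine peu_core hp hp2 A hA hgood' htp hxp ht0' htL hx ?_ ?_ hσ
      · intro τ hτ hc
        exact congrArg Subtype.val (hfix τ hτ hc)
      · intro τ hτ hc
        obtain ⟨n, hn⟩ := hB x τ hτ
        refine ⟨n, ?_⟩
        have := congrArg Subtype.val hn
        rw [Submodule.coe_add, AddSubmonoidClass.coe_nsmul] at this
        exact this

end Fermat.Agent.Ribet.H967
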