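import Fermat.Agent.S05.SameRed
import Fermat.Agent.S05.H245Val
import Fermat.Agent.S51.FiveTorsion

/-!
# RIBET / ELOC-ord (helper967), file 3: the translation identity

For affine points `P = (x₁, y₁)`, `Q = (x₂, y₂)` with `x₁ ≠ x₂` on a Weierstrass curve,
`x (P + Q) - x (P - Q) = - η₁ η₂ / (x₁ - x₂) ^ 2` where `η = 2 y + a₁ x + a₃`.
If the curve has integral coefficients, `2` is a unit, `P` is integral with `η₁` a unit and `Q` lies
in the kernel of reduction, then `v (x (P + Q) - x (P - Q)) ^ 2 = (v x₂)⁻¹`.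
-/

set_option autoImplicit false

namespace Fermat.Agent.Ribet.H967

open WeierstrassCurve WeierstrassCurve.Affine
open Fermat.Agent.S51.Five (xc xc_some)
open Fermat.Agent.S05.SameRed (IntegralCoeffs InKer)

variable {K : Type*} [Field K] [DecidableEq K] {W : Affine K}

theorem xc_add_sub_xc_sub {x₁ y₁ x₂ y₂ : K} (h₁ : W.Nonsingular x₁ y₁)
    (h₂ : W.Nonsingular x₂ y₂) (hx : x₁ ≠ x₂) :
    xc (Point.some x₁ y₁ h₁ + Point.some x₂ y₂ h₂) -
        xc (Point.some x₁ y₁ h₁ - Point.some x₂ y₂ h₂) =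
      -((2 * y₁ + W.a₁ * x₁ + W.a₃) * (2 * y₂ + W.a₁ * x₂ + W.a₃)) / (x₁ - x₂) ^ 2 := by
  rw [sub_eq_add_neg (Point.some x₁ y₁ h₁), Point.neg_some, Point.add_of_X_ne hx,
    Point.add_of_X_ne hx, xc_some, xc_some]
  simp only [Affine.addX, Affine.slope_of_X_ne hx, Affine.negY]
  have h0 : x₁ - x₂ ≠ 0 := sub_ne_zero.mpr hx
  field_simp
  ring

variable {Γ₀ : Type*} [LinearOrderedCommGroupWithZero Γ₀] {v : Valuation K Γ₀}

omit [DecidableEq K] in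
theorem intCoeffs_of_integralCoeffs (hW : IntegralCoeffs W v) :
    Fermat.Agent.S05.H245.IntCoeffs v W :=
  ⟨hW.a₁, hW.a₂, hW.a₃, hW.a₄, hW.a₆⟩

/-- `v η = v y` for a point in the kernel of reduction (`v 2 = 1`). -/
theorem val_eta_of_inKer (hW : IntegralCoeffs W v) (h2 : v (2 : K) = 1) {x y : K}
    (h : W.Equation x y) (hx : 1 < v x) :
    v (2 * y + W.a₁ * x + W.a₃) = v y := by
  obtain ⟨hxy, -⟩ := Fermat.Agent.S05.H245.val_xy (intCoeffs_of_integralCoeffs hW) h hx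
  have h1 : v (W.a₁ * x + W.a₃) ≤ v x :=
    Fermat.Agent.S05.H245.val_lin_le (intCoeffs_of_integralCoeffs hW) hx.le
  have h3 : v (2 * y) = v y := by rw [map_mul, h2, one_mul]
  rw [add_assoc, Valuation.map_add_eq_of_lt_left v (by rw [h3]; exact h1.trans_lt hxy), h3]

/-- **Translation estimate.** -/
theorem val_sq_xc_add_sub (hW : IntegralCoeffs W v) (h2 : v (2 : K) = 1) {x₁ y₁ x₂ y₂ : K}
    (h₁ : W.Nonsingular x₁ y₁) (h₂ : W.Nonsingular x₂ y₂) (hx₁ : v x₁ ≤ 1)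
    (hη : v (2 * y₁ + W.a₁ * x₁ + W.a₃) = 1) (hx₂ : 1 < v x₂) :
    xc (Point.some x₁ y₁ h₁ + Point.some x₂ y₂ h₂) ≠
        xc (Point.some x₁ y₁ h₁ - Point.some x₂ y₂ h₂) ∧
      v (xc (Point.some x₁ y₁ h₁ + Point.some x₂ y₂ h₂) -
        xc (Point.some x₁ y₁ h₁ - Point.some x₂ y₂ h₂)) ^ 2 = (v x₂)⁻¹ := by
  have hx : x₁ ≠ x₂ := by
    rintro rfl
    exact absurd hx₂ (not_lt.mpr hx₁)
  obtain ⟨hxy, hy2⟩ := Fermat.Agent.S05.H245.val_xy (intCoeffs_of_integralCoeffs hW) h₂.1 hx₂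
  have hη₂ := val_eta_of_inKer hW h2 h₂.1 hx₂
  have ha : v x₂ ≠ 0 := (lt_trans zero_lt_one hx₂).ne'
  have hb : v y₂ ≠ 0 := (lt_trans (lt_trans zero_lt_one hx₂) hxy).ne'
  have hsub : v (x₁ - x₂) = v x₂ := by
    exact Valuation.map_sub_eq_of_lt_right v (hx₁.trans_lt hx₂)
  have hval : v (xc (Point.some x₁ y₁ h₁ + Point.some x₂ y₂ h₂) -
      xc (Point.some x₁ y₁ h₁ - Point.some x₂ y₂ h₂)) = v y₂ / v x₂ ^ 2 := by
    rw [xc_add_sub_xc_sub h₁ h₂ hx, map_div₀, Valuation.map_neg, map_mul, hη, hη₂, one_mul,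
      map_pow, hsub]
  refine ⟨?_, ?_⟩
  · intro h
    rw [h, sub_self, _root_.map_zero] at hval
    exact (div_ne_zero hb (pow_ne_zero 2 ha)) hval.symm
  · rw [hval, div_pow, hy2, ← pow_mul]
    apply eq_inv_of_mul_eq_one_left
    rw [div_mul_eq_mul_div, ← pow_succ, div_self (pow_ne_zero _ ha)]

end Fermat.Agent.Ribet.H967
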