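import Fermat.Agent.Ribet.H187.ELocMain
import Fermat.Agent.S13.H64.AtP
import Fermat.Agent.Lib.Red.H382.Ker
import Fermat.Agent.Ribet.H967.Trans

/-!
# RIBET / ELOC-ord (helper967), file 4: local geometry of `E[p]` at a place of good reduction

`W : WeierstrassCurve ℤ`, `p` an odd prime with `p ∤ Δ`, `A` a valuation subring of `ℚ̄` over `p`,
`E = W_ℚ̄`.
* `inKer_smul_sub` : inertia moves every point inside the kernel of reduction;
* `val_eta_eq_one` : `η = 2y + a₁x + a₃` is a unit at integral `p`-torsion points;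
* `val_sq_xc_add_sub_torsion` : for `P ∈ E[p]` integral and `Q ≠ 0` in the kernel of reduction,
  `x (P + Q) ≠ x (P - Q)` and `v (x (P + Q) - x (P - Q)) ^ 2 = (v (x Q))⁻¹`.
-/

set_option autoImplicit false

open WeierstrassCurve WeierstrassCurve.Affine
open Fermat.Agent.S51.Five (xc xc_galois_smul)
open Fermat.Agent.S05.SameRed (IntegralCoeffs InKer inKer_zero inKer_some)

namespace Fermat.Agent.Ribet.H967

local notation "Qb" => AlgebraicClosure ℚ

variable (W : WeierstrassCurve ℤ)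

theorem integralCoeffs_baseChange (A : ValuationSubring Qb) :
    IntegralCoeffs ((W.map (Int.castRingHom ℚ))⁄Qb) A.valuation := by
  obtain ⟨h1, h2, h3, h4, h6⟩ := Fermat.Agent.Ribet.H187.isIntegralAt_baseChange W A
  exact ⟨h1, h2, h3, h4, h6⟩

theorem val_Δ_baseChange {p : ℕ} (hp : p.Prime) (A : ValuationSubring Qb)
    (hA : A.LiesOverPrime p) (hgood : ¬ (p : ℤ) ∣ W.Δ) :
    A.valuation ((W.map (Int.castRingHom ℚ))⁄Qb).Δ = 1 := by
  have e : ((W.map (Int.castRingHom ℚ))⁄Qb).Δ = ((W.Δ : ℤ) : Qb) := by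
    show ((W.map (Int.castRingHom ℚ)).map (algebraMap ℚ Qb)).Δ = _
    rw [WeierstrassCurve.map_Δ, WeierstrassCurve.map_Δ]
    simp
  rw [e]
  exact Fermat.Agent.S05.Assemble.val_int_eq_one hA hp hgood

variable {W}

/-- Inertia preserves the valuation. -/
theorem val_apply_of_mem_inertia (A : ValuationSubring Qb) {σ : Qb ≃ₐ[ℚ] Qb}
    (hσ : σ ∈ A.inertiaSubgroupIn ℚ) (x : Qb) : A.valuation (σ x) = A.valuation x := by
  have : Algebra.IsAlgebraic ℚ Qb := AlgebraicClosure.isAlgebraic ℚ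
  exact Fermat.Agent.A2.H708.valuation_apply_of_mem_decomposition A
    (Fermat.Agent.A2.H708.mem_decomposition_of_mem_inertiaIn A hσ) x

theorem gal_smul_some' (σ : Qb ≃ₐ[ℚ] Qb) {x y : Qb}
    (h : ((W.map (Int.castRingHom ℚ))⁄Qb).Nonsingular x y) :
    ∃ h' : ((W.map (Int.castRingHom ℚ))⁄Qb).Nonsingular (σ x) (σ y),
      σ • (Point.some x y h : ((W.map (Int.castRingHom ℚ))⁄Qb).Point) =
        Point.some (σ x) (σ y) h' :=
  ⟨_, Point.map_some (W' := W.map (Int.castRingHom ℚ)) σ.toAlgHom h⟩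

theorem inKer_smul_iff (A : ValuationSubring Qb) {σ : Qb ≃ₐ[ℚ] Qb}
    (hσ : σ ∈ A.inertiaSubgroupIn ℚ) (P : ((W.map (Int.castRingHom ℚ))⁄Qb).Point) :
    InKer ((W.map (Int.castRingHom ℚ))⁄Qb) A.valuation (σ • P) ↔
      InKer ((W.map (Int.castRingHom ℚ))⁄Qb) A.valuation P := by
  rcases P with _ | ⟨x, y, h⟩
  · exact Iff.rfl
  · obtain ⟨h', e⟩ := gal_smul_some' σ h
    rw [e, inKer_some, inKer_some, val_apply_of_mem_inertia A hσ]

/-- **Inertia moves points only inside the kernel of reduction** (good reduction). -/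
theorem inKer_smul_sub {p : ℕ} (hp : p.Prime) (A : ValuationSubring Qb)
    (hA : A.LiesOverPrime p) (hgood : ¬ (p : ℤ) ∣ W.Δ) {σ : Qb ≃ₐ[ℚ] Qb}
    (hσ : σ ∈ A.inertiaSubgroupIn ℚ) (P : ((W.map (Int.castRingHom ℚ))⁄Qb).Point) :
    InKer ((W.map (Int.castRingHom ℚ))⁄Qb) A.valuation (σ • P - P) := by
  have hW := integralCoeffs_baseChange W A
  have hΔ := val_Δ_baseChange W hp A hA hgood
  by_cases hP : InKer ((W.map (Int.castRingHom ℚ))⁄Qb) A.valuation P
  · exact Fermat.Agent.Lib.Red.H382.inKer_sub hW ((inKer_smul_iff A hσ P).mpr hP) hP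
  · rcases P with _ | ⟨x, y, h⟩
    · exact absurd inKer_zero hP
    · rw [inKer_some, not_lt] at hP
      have hy : A.valuation y ≤ 1 := Fermat.Agent.S05.GoodRed.val_y_le_one hW h.1 hP
      obtain ⟨h', e⟩ := gal_smul_some' σ h
      rw [e]
      have hres := Fermat.Agent.S05.Assemble.inertia_res A hσ
      have hσx : A.valuation (σ x) ≤ 1 := by rw [val_apply_of_mem_inertia A hσ]; exact hP
      have hσy : A.valuation (σ y) ≤ 1 := by rw [val_apply_of_mem_inertia A hσ]; exact hy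
      refine Fermat.Agent.S05.SameRed.inKer_sub_of_same_reduction hW h' h hσx hσy hP hy
        (hres x hP) (hres y hy) ?_
      exact Fermat.Agent.S05.GoodRed.nonsingular_reduction_of_val_Δ hW hΔ h'.1 hσx

/-- `η` is a unit at integral points of odd order (good reduction). -/
theorem val_eta_eq_one {p : ℕ} (hp : p.Prime) (hp2 : p ≠ 2) (A : ValuationSubring Qb)
    (hA : A.LiesOverPrime p) (hgood : ¬ (p : ℤ) ∣ W.Δ) {x y : Qb}
    (h : ((W.map (Int.castRingHom ℚ))⁄Qb).Nonsingular x y)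
    (hP : p • Point.some x y h = 0) (hx : A.valuation x ≤ 1) :
    A.valuation (2 * y + ((W.map (Int.castRingHom ℚ))⁄Qb).a₁ * x +
      ((W.map (Int.castRingHom ℚ))⁄Qb).a₃) = 1 := by
  have hW := integralCoeffs_baseChange W A
  have hΔ := val_Δ_baseChange W hp A hA hgood
  have h2 := Fermat.Agent.S05.Assemble.val_two_eq_one hA hp hp2
  refine Fermat.Agent.S13.H64.val_eta_eq_one_of_integral_torsion hW h2 (hp.odd_of_ne_two hp2) h
    hP hx ?_
  intro hlt
  rcases Fermat.Agent.S05.GoodRed.nonsingular_reduction_of_val_Δ hW hΔ h.1 hx with h1 | h1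
  · exact h1
  · rw [h1] at hlt
    exact absurd hlt (lt_irrefl _)

/-- **Translation estimate** for an integral `p`-torsion point `P` and a nonzero point `Q` in the
kernel of reduction. -/
theorem val_sq_xc_add_sub_torsion {p : ℕ} (hp : p.Prime) (hp2 : p ≠ 2)
    (A : ValuationSubring Qb) (hA : A.LiesOverPrime p) (hgood : ¬ (p : ℤ) ∣ W.Δ)
    {P Q : ((W.map (Int.castRingHom ℚ))⁄Qb).Point} (hPp : p • P = 0)
    (hP : ¬ InKer ((W.map (Int.castRingHom ℚ))⁄Qb) A.valuation P)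
    (hQ : InKer ((W.map (Int.castRingHom ℚ))⁄Qb) A.valuation Q) (hQ0 : Q ≠ 0) :
    xc (P + Q) ≠ xc (P - Q) ∧ xc Q ≠ 0 ∧
      A.valuation (xc (P + Q) - xc (P - Q)) ^ 2 = A.valuation (xc Q)⁻¹ := by
  have hW := integralCoeffs_baseChange W A
  have h2 := Fermat.Agent.S05.Assemble.val_two_eq_one hA hp hp2
  rcases P with _ | ⟨x₁, y₁, h₁⟩
  · exact absurd inKer_zero hP
  rcases Q with _ | ⟨x₂, y₂, h₂⟩
  · exact absurd rfl hQ0
  rw [inKer_some, not_lt] at hP
  rw [inKer_some] at hQ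
  have hη := val_eta_eq_one hp hp2 A hA hgood h₁ hPp hP
  obtain ⟨hne, hv⟩ := val_sq_xc_add_sub hW h2 h₁ h₂ hP hη hQ
  refine ⟨hne, ?_, ?_⟩
  · show x₂ ≠ 0
    rintro rfl
    rw [_root_.map_zero] at hQ
    exact not_lt_zero hQ
  · rw [hv, map_inv₀]
    rfl

end Fermat.Agent.Ribet.H967
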