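import Fermat.Agent.Ribet.H967.ResolventVal

/-!
# RIBET / ELOC-ord (helper967), file 2: Lagrange resolvents of a cyclic orbit

`ζ` a primitive `p`-th root of unity in a field `K`, `z : ZMod p → K` a family permuted cyclically
by a set `T` of field endomorphisms fixing `ζ`.  The resolvents
`res ζ z a = ∑ k, ζ ^ (-(a k)) z k` are Kummer elements: `τ (res a) = ζ ^ (a j) res a` when `τ`
shifts `z` by `j`, and `p (z m - z m') = ∑ a, (ζ ^ (a m) - ζ ^ (a m')) res a`.

Main result `inValGroup_res`: if `v (z m - z m') ^ 2` is the valuation of a nonzero element of the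
subfield `F ⊇ K ^ T`, then some nonzero resolvent `ξ = res a₀` (`a₀ ≠ 0`) has `v ξ` in the value
group of `F`.
-/

set_option autoImplicit false

namespace Fermat.Agent.Ribet.H967

variable {K : Type*} [Field K]

section zch

variable {p : ℕ} [hpF : Fact p.Prime]

/-- The additive character `k ↦ ζ ^ k` of `ZMod p`. -/
def zch (ζ : K) (k : ZMod p) : K := ζ ^ k.val

theorem zch_natCast {ζ : K} (hζ : ζ ^ p = 1) (n : ℕ) : zch ζ ((n : ℕ) : ZMod p) = ζ ^ n := by
  unfold zch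
  rw [ZMod.val_natCast]
  conv_rhs => rw [← Nat.div_add_mod n p]
  rw [pow_add, pow_mul, hζ, one_pow, one_mul]

theorem zch_zero (ζ : K) : zch ζ (0 : ZMod p) = 1 := by
  unfold zch
  rw [ZMod.val_zero, pow_zero]

theorem zch_add {ζ : K} (hζ : ζ ^ p = 1) (k l : ZMod p) :
    zch ζ (k + l) = zch ζ k * zch ζ l := by
  have h1 : k + l = ((k.val + l.val : ℕ) : ZMod p) := by
    rw [Nat.cast_add, ZMod.natCast_zmod_val, ZMod.natCast_zmod_val]
  rw [h1, zch_natCast hζ, pow_add]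
  rfl

theorem zch_ne_zero {ζ : K} (hζ : ζ ^ p = 1) (k : ZMod p) : zch ζ k ≠ 0 := by
  unfold zch
  apply pow_ne_zero
  rintro rfl
  rw [zero_pow hpF.out.ne_zero] at hζ
  exact zero_ne_one hζ

theorem zch_neg {ζ : K} (hζ : ζ ^ p = 1) (k : ZMod p) : zch ζ (-k) = (zch ζ k)⁻¹ := by
  have h := zch_add hζ (-k) k
  rw [neg_add_cancel, zch_zero] at h
  exact eq_inv_of_mul_eq_one_left h.symm

theorem zch_sub {ζ : K} (hζ : ζ ^ p = 1) (k l : ZMod p) :
    zch ζ (k - l) = zch ζ k / zch ζ l := by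
  rw [sub_eq_add_neg, zch_add hζ, zch_neg hζ, div_eq_mul_inv]

theorem zch_natCast_mul {ζ : K} (hζ : ζ ^ p = 1) (n : ℕ) (k : ZMod p) :
    zch ζ ((n : ZMod p) * k) = zch ζ k ^ n := by
  induction n with
  | zero => rw [Nat.cast_zero, zero_mul, zch_zero, pow_zero]
  | succ n ih => rw [Nat.cast_succ, add_mul, one_mul, zch_add hζ, ih, pow_succ]

omit hpF in
theorem zch_pow_p {ζ : K} (hζ : ζ ^ p = 1) (k : ZMod p) : zch ζ k ^ p = 1 := by
  unfold zch
  rw [← pow_mul, mul_comm, pow_mul, hζ, one_pow]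

theorem zch_eq_one_iff {ζ : K} (hζ : IsPrimitiveRoot ζ p) (k : ZMod p) :
    zch ζ k = 1 ↔ k = 0 := by
  constructor
  · intro h
    unfold zch at h
    have h1 : p ∣ k.val := (hζ.pow_eq_one_iff_dvd _).mp h
    have h2 : k.val < p := ZMod.val_lt k
    have h3 : k.val = 0 := Nat.eq_zero_of_dvd_of_lt h1 h2
    exact (ZMod.val_eq_zero k).mp h3
  · rintro rfl
    exact zch_zero ζ

/-- orthogonality -/
theorem sum_zch_mul {ζ : K} (hζ : IsPrimitiveRoot ζ p) (c : ZMod p) :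
    ∑ a : ZMod p, zch ζ (a * c) = if c = 0 then (p : K) else 0 := by
  have hζp : ζ ^ p = 1 := hζ.pow_eq_one
  split_ifs with hc
  · subst hc
    simp only [mul_zero, zch_zero, Finset.sum_const, Finset.card_univ, ZMod.card, nsmul_eq_mul,
      mul_one]
  · -- shift invariance
    set S := ∑ a : ZMod p, zch ζ (a * c) with hS
    have h1 : zch ζ c * S = S := by
      rw [hS, Finset.mul_sum]
      have : ∀ a : ZMod p, zch ζ c * zch ζ (a * c) = zch ζ ((a + 1) * c) := by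
        intro a
        rw [add_mul, one_mul, zch_add hζp, mul_comm]
      simp only [this]
      exact Fintype.sum_equiv (Equiv.addRight (1 : ZMod p)) _ _ (fun a => rfl)
    have h2 : (zch ζ c - 1) * S = 0 := by
      rw [sub_mul, h1, one_mul, sub_self]
    rcases mul_eq_zero.mp h2 with h | h
    · exact absurd ((zch_eq_one_iff hζ c).mp (sub_eq_zero.mp h)) hc
    · exact h

end zch

section res

variable {p : ℕ} [hpF : Fact p.Prime]

/-- The Lagrange resolvent. -/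
def res (ζ : K) (z : ZMod p → K) (a : ZMod p) : K := ∑ k : ZMod p, zch ζ (-(a * k)) * z k

/-- Fourier inversion. -/
theorem sum_zch_mul_res {ζ : K} (hζ : IsPrimitiveRoot ζ p) (z : ZMod p → K) (m : ZMod p) :
    ∑ a : ZMod p, zch ζ (a * m) * res ζ z a = (p : K) * z m := by
  have hζp : ζ ^ p = 1 := hζ.pow_eq_one
  unfold res
  simp only [Finset.mul_sum]
  rw [Finset.sum_comm]
  have h1 : ∀ k : ZMod p, ∑ a : ZMod p, zch ζ (a * m) * (zch ζ (-(a * k)) * z k) =
      (if m - k = 0 then (p : K) else 0) * z k := by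
    intro k
    rw [← sum_zch_mul hζ (m - k), Finset.sum_mul]
    refine Finset.sum_congr rfl (fun a _ => ?_)
    rw [← mul_assoc, ← zch_add hζp]
    congr 2
    ring
  simp only [h1]
  rw [Finset.sum_eq_single m]
  · simp
  · intro k _ hk
    have : m - k ≠ 0 := fun h => hk (sub_eq_zero.mp h).symm
    simp [this]
  · intro h
    exact absurd (Finset.mem_univ m) h

theorem sum_sub_mul_res {ζ : K} (hζ : IsPrimitiveRoot ζ p) (z : ZMod p → K) (m m' : ZMod p) :
    ∑ a : ZMod p, (zch ζ (a * m) - zch ζ (a * m')) * res ζ z a = (p : K) * (z m - z m') := by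
  simp only [sub_mul, Finset.sum_sub_distrib]
  rw [sum_zch_mul_res hζ, sum_zch_mul_res hζ, mul_sub]

/-- Equivariance of the resolvents. -/
theorem res_apply {ζ : K} (hζ : ζ ^ p = 1) (z : ZMod p → K) (τ : K →+* K) (hτζ : τ ζ = ζ)
    (j : ZMod p) (hj : ∀ l, τ (z l) = z (l + j)) (a : ZMod p) :
    τ (res ζ z a) = zch ζ (a * j) * res ζ z a := by
  unfold res
  rw [map_sum, Finset.mul_sum]
  have h1 : ∀ k : ZMod p, τ (zch ζ (-(a * k)) * z k) = zch ζ (-(a * k)) * z (k + j) := by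
    intro k
    rw [map_mul, hj]
    unfold zch
    rw [map_pow, hτζ]
  simp only [h1]
  refine Fintype.sum_equiv (Equiv.addRight j) _ _ (fun k => ?_)
  show zch ζ (-(a * k)) * z (k + j) = zch ζ (a * j) * (zch ζ (-(a * (k + j))) * z (k + j))
  rw [← mul_assoc, ← zch_add hζ]
  congr 2
  ring

theorem res_pow_apply {ζ : K} (hζ : ζ ^ p = 1) (z : ZMod p → K) (τ : K →+* K) (hτζ : τ ζ = ζ)
    (j : ZMod p) (hj : ∀ l, τ (z l) = z (l + j)) (a : ZMod p) :
    τ (res ζ z a ^ p) = res ζ z a ^ p := by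
  rw [map_pow, res_apply hζ z τ hτζ j hj, mul_pow, zch_pow_p hζ, one_mul]

variable {Γ₀ : Type*} [LinearOrderedCommGroupWithZero Γ₀] {v : Valuation K Γ₀}

/-- **Main resolvent theorem.**  `T` a set of endomorphisms of `K` fixing `ζ` and shifting the
family `z`; `F` a subfield containing `ζ` and all `T`-invariants.  If `z m ≠ z m'` and
`v (z m - z m') ^ 2` lies in the value group of `F`, then there is `a₀ ≠ 0` with
`ξ = res ζ z a₀ ≠ 0`, `ξ ^ p ∈ F` and `v ξ` in the value group of `F`. -/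
theorem inValGroup_res (hp2 : p ≠ 2) (hpK : (p : K) ≠ 0) {ζ : K} (hζ : IsPrimitiveRoot ζ p)
    (F : Subfield K) (hζF : ζ ∈ F) (z : ZMod p → K) (T : Set (K →+* K))
    (hT : ∀ τ ∈ T, τ ζ = ζ ∧ ∃ j : ZMod p, ∀ l, τ (z l) = z (l + j))
    (hF : ∀ x : K, (∀ τ ∈ T, τ x = x) → x ∈ F)
    (m m' : ZMod p) (hz : z m ≠ z m')
    (hsq : InValGroup v F (v (z m - z m') ^ 2)) :
    ∃ a₀ : ZMod p, a₀ ≠ 0 ∧ res ζ z a₀ ≠ 0 ∧ res ζ z a₀ ^ p ∈ F ∧
      InValGroup v F (v (res ζ z a₀)) := by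
  classical
  have hp := hpF.out
  have hζp : ζ ^ p = 1 := hζ.pow_eq_one
  have hzchF : ∀ k : ZMod p, zch ζ k ∈ F := fun k => F.pow_mem hζF _
  have hpF' : (p : K) ∈ F := natCast_mem F p
  -- a nonzero resolvent
  have hsum := sum_sub_mul_res hζ z m m'
  have hne : (p : K) * (z m - z m') ≠ 0 := mul_ne_zero hpK (sub_ne_zero.mpr hz)
  obtain ⟨a₀, -, ha₀⟩ : ∃ a ∈ (Finset.univ : Finset (ZMod p)),
      (zch ζ (a * m) - zch ζ (a * m')) * res ζ z a ≠ 0 := by
    apply Finset.exists_ne_zero_of_sum_ne_zero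
    rw [hsum]
    exact hne
  have ha₀0 : a₀ ≠ 0 := by
    rintro rfl
    apply ha₀
    rw [zero_mul, zero_mul, sub_self, zero_mul]
  have hξ0 : res ζ z a₀ ≠ 0 := right_ne_zero_of_mul ha₀
  set ξ := res ζ z a₀ with hξ
  have hξp : ξ ^ p ∈ F := by
    apply hF
    intro τ hτ
    obtain ⟨hτζ, j, hj⟩ := hT τ hτ
    exact res_pow_apply hζp z τ hτζ j hj a₀
  refine ⟨a₀, ha₀0, hξ0, hξp, ?_⟩
  -- the expansion of `z m - z m'`
  set n : ZMod p → ℕ := fun a => (a * a₀⁻¹).val with hn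
  set ρ : ZMod p → K := fun a => res ζ z a / ξ ^ n a with hρ
  have hρF : ∀ a, ρ a ∈ F := by
    intro a
    apply hF
    intro τ hτ
    obtain ⟨hτζ, j, hj⟩ := hT τ hτ
    simp only [hρ]
    rw [map_div₀, map_pow, res_apply hζp z τ hτζ j hj a, hξ, res_apply hζp z τ hτζ j hj a₀,
      mul_pow, ← zch_natCast_mul hζp]
    have e : ((n a : ℕ) : ZMod p) * (a₀ * j) = a * j := by
      simp only [hn]
      rw [ZMod.natCast_zmod_val, mul_assoc, ← mul_assoc a₀⁻¹, inv_mul_cancel₀ ha₀0, one_mul]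
    rw [e, mul_div_mul_left _ _ (zch_ne_zero hζp _)]
  set c : ZMod p → K := fun a => (p : K)⁻¹ * (zch ζ (a * m) - zch ζ (a * m')) * ρ a with hc
  have hcF : ∀ a ∈ (Finset.univ : Finset (ZMod p)), c a ∈ F := by
    intro a _
    exact F.mul_mem (F.mul_mem (F.inv_mem hpF') (F.sub_mem (hzchF _) (hzchF _))) (hρF a)
  have hD : ∑ a : ZMod p, c a * ξ ^ n a = z m - z m' := by
    have h1 : ∀ a : ZMod p, c a * ξ ^ n a =
        (p : K)⁻¹ * ((zch ζ (a * m) - zch ζ (a * m')) * res ζ z a) := by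
      intro a
      simp only [hc, hρ]
      rw [mul_assoc, mul_assoc, div_mul_cancel₀ _ (pow_ne_zero _ hξ0)]
    simp only [h1]
    rw [← Finset.mul_sum, hsum, ← mul_assoc, inv_mul_cancel₀ hpK, one_mul]
  have hninj : ∀ a ∈ (Finset.univ : Finset (ZMod p)), ∀ b ∈ (Finset.univ : Finset (ZMod p)),
      a ≠ b → ¬ (n a ≡ n b [MOD p]) := by
    intro a _ b _ hab hmod
    apply hab
    have h1 : n a = n b := by
      have := Nat.ModEq.eq_of_lt_of_lt hmod (ZMod.val_lt _) (ZMod.val_lt _)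
      exact this
    have h2 : a * a₀⁻¹ = b * a₀⁻¹ := ZMod.val_injective p h1
    exact mul_right_cancel₀ (inv_ne_zero ha₀0) h2
  have hn0 : ∀ a ∈ (Finset.univ : Finset (ZMod p)), c a ≠ 0 → ¬ p ∣ n a := by
    intro a _ hca hd
    have h1 : n a = 0 := Nat.eq_zero_of_dvd_of_lt hd (ZMod.val_lt _)
    have h2 : a * a₀⁻¹ = 0 := (ZMod.val_eq_zero _).mp h1
    have h3 : a = 0 := by
      rcases mul_eq_zero.mp h2 with h | h
      · exact h
      · exact absurd h (inv_ne_zero ha₀0)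
    apply hca
    simp only [hc]
    rw [h3, zero_mul, zero_mul, sub_self, mul_zero, zero_mul]
  have hD0 : ∑ a : ZMod p, c a * ξ ^ n a ≠ 0 := by
    rw [hD]
    exact sub_ne_zero.mpr hz
  refine inValGroup_of_kummer_sum_sq F hp hp2 hξ0 hξp Finset.univ c n hcF hninj hn0 hD0 ?_
  rw [hD]
  exact hsq

end res

end Fermat.Agent.Ribet.H967
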