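import Fermat.Agent.Ribet.H944.WallSpec
import Fermat.Agent.Ribet.H967.Resolvent
import Fermat.Agent.Ribet.H967.ELocOrdA

/-!
# RIBET / ELOC-ord (helper967), file 5: `E[p]` is peu ramifiée at a place of good reduction

`peu_core`: `W` with good reduction at the odd prime `p`, `A` over `p`, `H ≤ I` the subgroup of
inertia fixing `μ_p`.  Let `t ≠ 0` be a `p`-torsion point in the kernel of reduction fixed by `H`
and `P` an integral `p`-torsion point with `τ P ∈ P + ℕ t` for `τ ∈ H`.  Then every `σ` with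
`PeuFixes A p σ` fixes `P`.

Proof: `ξ` = a nonzero Lagrange resolvent of `k ↦ x (P - t + k t)`; `ξ ^ p ∈ F = ℚ̄ ^ H`, and
`v ξ ∈ v (F ˣ)` by `inValGroup_res`, because
`v (x (P + t) - x (P - t)) ^ 2 = v (x t)⁻¹ ∈ v (F ˣ)`.  So `ξ = y u` with `u ∈ F` and `y` a unit
with `y ^ p ∈ F`; `σ` fixes `y` and `u`, hence `ξ`, hence `P`.
-/

set_option autoImplicit false

open WeierstrassCurve WeierstrassCurve.Affine
open Fermat.Agent.S51.Five (xc xc_galois_smul)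
open Fermat.Agent.S05.SameRed (IntegralCoeffs InKer inKer_zero inKer_some)
open Fermat.Agent.Ribet.Spec (GQ)
open Fermat.Agent.Ribet.H944.Wall

namespace Fermat.Agent.Ribet.H967

local notation "Qb" => AlgebraicClosure ℚ

/-! ### The cyclotomic character in the `CycloAt` encoding -/

theorem exists_primitiveRoot_Qb (p : ℕ) (hp : p.Prime) : ∃ ζ : Qb, IsPrimitiveRoot ζ p := by
  have : NeZero (p : Qb) := ⟨Nat.cast_ne_zero.mpr hp.ne_zero⟩
  exact HasEnoughRootsOfUnity.exists_primitiveRoot Qb p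

theorem exists_cycloAt {p : ℕ} (hp : p.Prime) (σ : GQ) : ∃ c : ℕ, CycloAt p σ c := by
  have : NeZero p := ⟨hp.ne_zero⟩
  obtain ⟨ζ₀, hζ₀⟩ := exists_primitiveRoot_Qb p hp
  have h1 : (σ ζ₀) ^ p = 1 := by rw [← map_pow, hζ₀.pow_eq_one, map_one]
  obtain ⟨c, -, hc⟩ := hζ₀.eq_pow_of_pow_eq_one h1
  refine ⟨c, fun ζ hζ => ?_⟩
  obtain ⟨i, -, rfl⟩ := hζ₀.eq_pow_of_pow_eq_one hζ
  rw [map_pow, ← hc, ← pow_mul, ← pow_mul, mul_comm]

theorem cycloAt_mul {p : ℕ} {σ τ : GQ} {c d : ℕ} (hσ : CycloAt p σ c) (hτ : CycloAt p τ d) :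
    CycloAt p (σ * τ) (c * d) := by
  intro ζ hζ
  rw [AlgEquiv.mul_apply, hτ ζ hζ, map_pow, hσ ζ hζ, ← pow_mul]

theorem cycloAt_natCast_eq {p : ℕ} (hp : p.Prime) {σ : GQ} {c d : ℕ} (hc : CycloAt p σ c)
    (hd : CycloAt p σ d) : (c : ZMod p) = (d : ZMod p) := by
  have : Fact p.Prime := ⟨hp⟩
  obtain ⟨ζ₀, hζ₀⟩ := exists_primitiveRoot_Qb p hp
  have hζp := hζ₀.pow_eq_one
  have h1 : zch ζ₀ ((c : ℕ) : ZMod p) = zch ζ₀ ((d : ℕ) : ZMod p) := by
    rw [zch_natCast hζp, zch_natCast hζp, ← hc ζ₀ hζp, ← hd ζ₀ hζp]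
  have h2 : zch ζ₀ ((c : ZMod p) - (d : ZMod p)) = 1 := by
    rw [zch_sub hζp, h1, div_self (zch_ne_zero hζp _)]
  exact sub_eq_zero.mp ((zch_eq_one_iff hζ₀ _).mp h2)

theorem cycloAt_natCast_ne_zero {p : ℕ} (hp : p.Prime) {σ : GQ} {c : ℕ}
    (hc : CycloAt p σ c) : (c : ZMod p) ≠ 0 := by
  have : Fact p.Prime := ⟨hp⟩
  obtain ⟨ζ₀, hζ₀⟩ := exists_primitiveRoot_Qb p hp
  have hζp := hζ₀.pow_eq_one
  intro h0
  have h1 : σ ζ₀ = 1 := by
    rw [hc ζ₀ hζp, ← zch_natCast hζp, h0, zch_zero]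
  have h2 : ζ₀ = 1 := by
    have := congrArg σ.symm h1
    simpa using this
  exact hζ₀.ne_one hp.one_lt h2

/-! ### The field `F = ℚ̄ ^ H` -/

/-- The fixed field of the subgroup `H` of the inertia group fixing the `p`-th roots of unity. -/
def peuField (A : ValuationSubring Qb) (p : ℕ) : Subfield Qb where
  carrier := {y | ∀ τ ∈ A.inertiaSubgroupIn ℚ, CycloAt p τ 1 → τ y = y}
  mul_mem' := fun {a b} ha hb τ hτ hc => by rw [map_mul, ha τ hτ hc, hb τ hτ hc]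
  one_mem' := fun τ _ _ => map_one τ
  add_mem' := fun {a b} ha hb τ hτ hc => by rw [map_add, ha τ hτ hc, hb τ hτ hc]
  zero_mem' := fun τ _ _ => map_zero τ
  neg_mem' := fun {a} ha τ hτ hc => by rw [map_neg, ha τ hτ hc]
  inv_mem' := fun a ha τ hτ hc => by rw [map_inv₀, ha τ hτ hc]

theorem mem_peuField {A : ValuationSubring Qb} {p : ℕ} {y : Qb} :
    y ∈ peuField A p ↔ ∀ τ ∈ A.inertiaSubgroupIn ℚ, CycloAt p τ 1 → τ y = y := Iff.rfl

/-- An element with `PeuFixes` fixes the roots of unity. -/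
theorem cycloAt_one_of_peuFixes {A : ValuationSubring Qb} {p : ℕ} (hp : p.Prime) {σ : GQ}
    (hσ : PeuFixes A p σ) : CycloAt p σ 1 := by
  intro ζ hζ
  rw [pow_one]
  have hv : A.valuation ζ = 1 := by
    have h1 : A.valuation ζ ^ p = 1 := by rw [← map_pow, hζ, map_one]
    exact (pow_eq_one_iff_of_nonneg zero_le hp.ne_zero).mp h1
  refine hσ.2 ζ ((A.valuation_le_one_iff ζ).mp hv.le) ((A.valuation_le_one_iff _).mp ?_) ?_
  · rw [map_inv₀, hv, inv_one]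
  · intro τ _ _
    rw [hζ, map_one]

/-! ### Torsion bookkeeping -/

section core

variable {W : WeierstrassCurve ℤ}

omit W in
/-- `k.val • t = m • t` when `p • t = 0` and `m ≡ k`. -/
theorem val_nsmul_eq {G : Type*} [AddCommGroup G] {p : ℕ} [NeZero p] {t : G} (htp : p • t = 0)
    (k : ZMod p) (m : ℕ) (h : ((m : ℕ) : ZMod p) = k) : k.val • t = m • t := by
  subst h
  rw [ZMod.val_natCast]
  conv_rhs => rw [← Nat.div_add_mod m p]
  rw [add_nsmul, mul_nsmul, htp, smul_zero, zero_add]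

/-- **Core of ELOC-ord (peu ramifiée).** -/
theorem peu_core {p : ℕ} (hp : p.Prime) (hp2 : p ≠ 2) (A : ValuationSubring Qb)
    (hA : A.LiesOverPrime p) (hgood : ¬ (p : ℤ) ∣ W.Δ)
    {t P : ((W.map (Int.castRingHom ℚ))⁄Qb).Point} (htp : p • t = 0) (hPp : p • P = 0)
    (ht0 : t ≠ 0) (htK : InKer ((W.map (Int.castRingHom ℚ))⁄Qb) A.valuation t)
    (hPK : ¬ InKer ((W.map (Int.castRingHom ℚ))⁄Qb) A.valuation P)
    (ht : ∀ τ ∈ A.inertiaSubgroupIn ℚ, CycloAt p τ 1 → τ • t = t)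
    (hP : ∀ τ ∈ A.inertiaSubgroupIn ℚ, CycloAt p τ 1 → ∃ n : ℕ, τ • P = P + n • t)
    {σ : GQ} (hσ : PeuFixes A p σ) : σ • P = P := by
  have hpF : Fact p.Prime := ⟨hp⟩
  have hpK : ((p : ℕ) : Qb) ≠ 0 := Nat.cast_ne_zero.mpr hp.ne_zero
  obtain ⟨ζ, hζ⟩ := exists_primitiveRoot_Qb p hp
  have hζp := hζ.pow_eq_one
  have hσI := hσ.1
  have hσc := cycloAt_one_of_peuFixes hp hσ
  have hζF : ζ ∈ peuField A p := fun τ _ hc => by
    have := hc ζ hζp
    rwa [pow_one] at this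
  -- the family `z k = x (P - t + k t)`
  set z : ZMod p → Qb := fun k => xc ((P - t) + k.val • t) with hz
  have hshift : ∀ τ ∈ A.inertiaSubgroupIn ℚ, CycloAt p τ 1 → ∀ n : ℕ, τ • P = P + n • t →
      ∀ l : ZMod p, τ (z l) = z (l + (n : ZMod p)) := by
    intro τ hτ hc n hn l
    simp only [hz]
    rw [← xc_galois_smul, smul_add, smul_sub, ← smul_comm (l.val) τ t, ht τ hτ hc, hn]
    congr 1
    rw [val_nsmul_eq htp (l + (n : ZMod p)) (l.val + n) (by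
      rw [Nat.cast_add, ZMod.natCast_zmod_val]), add_nsmul]
    abel
  set T : Set (Qb →+* Qb) :=
    {f | ∃ τ ∈ A.inertiaSubgroupIn ℚ, CycloAt p τ 1 ∧ f = (τ : Qb →+* Qb)} with hT
  have hTs : ∀ f ∈ T, f ζ = ζ ∧ ∃ j : ZMod p, ∀ l, f (z l) = z (l + j) := by
    rintro f ⟨τ, hτ, hc, rfl⟩
    refine ⟨?_, ?_⟩
    · have := hc ζ hζp
      rwa [pow_one] at this
    · obtain ⟨n, hn⟩ := hP τ hτ hc
      exact ⟨(n : ZMod p), fun l => hshift τ hτ hc n hn l⟩
  have hF : ∀ x : Qb, (∀ f ∈ T, f x = x) → x ∈ peuField A p := by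
    intro x hx τ hτ hc
    exact hx (τ : Qb →+* Qb) ⟨τ, hτ, hc, rfl⟩
  -- the translation estimate
  obtain ⟨hne, hxt0, hval⟩ := val_sq_xc_add_sub_torsion hp hp2 A hA hgood hPp hPK htK ht0
  have hz2 : z 2 = xc (P + t) := by
    simp only [hz]
    rw [val_nsmul_eq htp (2 : ZMod p) 2 (by norm_num)]
    congr 1
    rw [two_nsmul]
    abel
  have hz0 : z 0 = xc (P - t) := by
    simp only [hz]
    rw [ZMod.val_zero, zero_nsmul, add_zero]
  have hxtF : xc t ∈ peuField A p := by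
    intro τ hτ hc
    rw [← xc_galois_smul, ht τ hτ hc]
  have hsq : InValGroup A.valuation (peuField A p) (A.valuation (z 2 - z 0) ^ 2) := by
    rw [hz2, hz0, hval]
    exact inValGroup_val ((peuField A p).inv_mem hxtF) (inv_ne_zero hxt0)
  have hzne : z 2 ≠ z 0 := by
    rw [hz2, hz0]
    exact hne
  obtain ⟨a₀, ha₀, hξ0, hξp, u, huF, hu0, hvu⟩ :=
    inValGroup_res hp2 hpK hζ (peuField A p) hζF z T hTs hF 2 0 hzne hsq
  set ξ := res ζ z a₀ with hξ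
  -- `y = ξ / u` is a unit with `y ^ p ∈ F`
  have hvξ0 : A.valuation ξ ≠ 0 := (Valuation.ne_zero_iff _).mpr hξ0
  have hvy : A.valuation (ξ / u) = 1 := by
    rw [map_div₀, hvu, div_self hvξ0]
  have hy : σ (ξ / u) = ξ / u := by
    refine hσ.2 (ξ / u) ((A.valuation_le_one_iff _).mp hvy.le)
      ((A.valuation_le_one_iff _).mp ?_) ?_
    · rw [map_inv₀, hvy, inv_one]
    · have : (ξ / u) ^ p ∈ peuField A p := by
        rw [div_pow]
        exact (peuField A p).div_mem hξp ((peuField A p).pow_mem huF p)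
      exact this
  have hσu : σ u = u := huF σ hσI hσc
  have hσξ : σ ξ = ξ := by
    have e : ξ = (ξ / u) * u := (div_mul_cancel₀ _ hu0).symm
    rw [e, map_mul, hy, hσu]
  obtain ⟨n, hn⟩ := hP σ hσI hσc
  have hσζ : (σ : Qb →+* Qb) ζ = ζ := by
    have := hσc ζ hζp
    rwa [pow_one] at this
  have hres := res_apply hζp z (σ : Qb →+* Qb) hσζ (n : ZMod p) (hshift σ hσI hσc n hn) a₀
  have hres' : σ ξ = zch ζ (a₀ * (n : ZMod p)) * ξ := hres
  rw [hσξ] at hres'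
  have h1 : zch ζ (a₀ * (n : ZMod p)) = 1 := by
    have h2 : zch ζ (a₀ * (n : ZMod p)) * ξ = 1 * ξ := by rw [one_mul]; exact hres'.symm
    exact mul_right_cancel₀ hξ0 h2
  have h2 : a₀ * (n : ZMod p) = 0 := (zch_eq_one_iff hζ _).mp h1
  have h3 : ((n : ℕ) : ZMod p) = 0 := by
    rcases mul_eq_zero.mp h2 with h | h
    · exact absurd h ha₀
    · exact h
  obtain ⟨m, rfl⟩ := (ZMod.natCast_eq_zero_iff _ _).mp h3
  rw [hn, mul_nsmul, htp, nsmul_zero, add_zero]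

end core

end Fermat.Agent.Ribet.H967
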