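import Mathlib

/-!
# RIBET / ELOC-ord (helper967), file 1: the valuation argument

`K` a field with a valuation `v`, `F` a subfield, `ξ ∈ K` with `ξ ^ p ∈ F`.
If `v ξ` is not the valuation of an element of `F`, the elements `c · ξ ^ n` (`c ∈ F`, `n` running
over distinct classes modulo `p`) have pairwise distinct valuations, so the valuation of a sum of
such terms is the valuation of one of them.
-/

set_option autoImplicit false

namespace Fermat.Agent.Ribet.H967

variable {K : Type*} [Field K] {Γ₀ : Type*} [LinearOrderedCommGroupWithZero Γ₀]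
  (v : Valuation K Γ₀)

/-- `g` is the valuation of a nonzero element of the subfield `F`. -/
def InValGroup (F : Subfield K) (g : Γ₀) : Prop := ∃ u ∈ F, u ≠ 0 ∧ v u = g

variable {v}

theorem InValGroup.ne_zero {F : Subfield K} {g : Γ₀} (h : InValGroup v F g) : g ≠ 0 := by
  obtain ⟨u, -, hu0, rfl⟩ := h
  exact (Valuation.ne_zero_iff v).mpr hu0

theorem inValGroup_val {F : Subfield K} {u : K} (hu : u ∈ F) (hu0 : u ≠ 0) :
    InValGroup v F (v u) := ⟨u, hu, hu0, rfl⟩

theorem InValGroup.mul {F : Subfield K} {g h : Γ₀} (hg : InValGroup v F g)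
    (hh : InValGroup v F h) : InValGroup v F (g * h) := by
  obtain ⟨u, hu, hu0, rfl⟩ := hg
  obtain ⟨w, hw, hw0, rfl⟩ := hh
  exact ⟨u * w, F.mul_mem hu hw, mul_ne_zero hu0 hw0, map_mul v u w⟩

theorem InValGroup.inv {F : Subfield K} {g : Γ₀} (hg : InValGroup v F g) :
    InValGroup v F g⁻¹ := by
  obtain ⟨u, hu, hu0, rfl⟩ := hg
  exact ⟨u⁻¹, F.inv_mem hu, inv_ne_zero hu0, map_inv₀ v u⟩

theorem InValGroup.pow {F : Subfield K} {g : Γ₀} (hg : InValGroup v F g) (n : ℕ) :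
    InValGroup v F (g ^ n) := by
  obtain ⟨u, hu, hu0, rfl⟩ := hg
  exact ⟨u ^ n, F.pow_mem hu n, pow_ne_zero n hu0, map_pow v u n⟩

theorem InValGroup.div {F : Subfield K} {g h : Γ₀} (hg : InValGroup v F g)
    (hh : InValGroup v F h) : InValGroup v F (g / h) := by
  rw [div_eq_mul_inv]
  exact hg.mul hh.inv

/-- Root extraction: if `g ^ p` and `g ^ n` are in the value group of `F` and `p ∤ n`, so is `g`. -/
theorem inValGroup_of_pow {F : Subfield K} {g : Γ₀} (hg : g ≠ 0) {p n : ℕ} (hp : p.Prime)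
    (hn : ¬ p ∣ n) (h1 : InValGroup v F (g ^ p)) (h2 : InValGroup v F (g ^ n)) :
    InValGroup v F g := by
  have hcop : Nat.Coprime n p := ((Nat.Prime.coprime_iff_not_dvd hp).mpr hn).symm
  obtain ⟨m, -, hm⟩ := Nat.exists_mul_mod_eq_one_of_coprime hcop hp.one_lt
  have e : n * m = p * (n * m / p) + 1 := by
    have := Nat.div_add_mod (n * m) p
    omega
  have h3 : g ^ (n * m) = (g ^ p) ^ (n * m / p) * g := by
    rw [← pow_mul, ← pow_succ, ← e]
  have h4 : g = g ^ (n * m) / (g ^ p) ^ (n * m / p) := by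
    rw [h3, mul_div_assoc, mul_comm, div_mul_cancel₀]
    exact pow_ne_zero _ (pow_ne_zero _ hg)
  rw [h4, pow_mul]
  exact (h2.pow m).div (h1.pow _)

/-- The valuation of a sum of terms with pairwise distinct valuations is the valuation of one of
the terms. -/
theorem exists_val_sum_eq {ι : Type*} (s : Finset ι) (f : ι → K) (hs : s.Nonempty)
    (hinj : ∀ i ∈ s, ∀ j ∈ s, i ≠ j → v (f i) ≠ v (f j)) :
    ∃ i ∈ s, v (∑ i ∈ s, f i) = v (f i) := by
  classical
  induction hs using Finset.Nonempty.cons_induction with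
  | singleton a => exact ⟨a, Finset.mem_singleton_self a, by simp⟩
  | cons a s ha hs ih =>
    obtain ⟨i₀, hi₀, hv⟩ := ih (fun i hi j hj hij =>
      hinj i (Finset.mem_cons.mpr (Or.inr hi)) j (Finset.mem_cons.mpr (Or.inr hj)) hij)
    have hne : v (f a) ≠ v (∑ i ∈ s, f i) := by
      rw [hv]
      apply hinj a (Finset.mem_cons_self a s) i₀ (Finset.mem_cons.mpr (Or.inr hi₀))
      rintro rfl
      exact ha hi₀
    rw [Finset.sum_cons, Valuation.map_add_of_distinct_val v hne]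
    rcases max_choice (v (f a)) (v (∑ i ∈ s, f i)) with h | h
    · exact ⟨a, Finset.mem_cons_self a s, h⟩
    · exact ⟨i₀, Finset.mem_cons.mpr (Or.inr hi₀), h.trans hv⟩

/-- **Kummer sums.**  If `ξ ^ p ∈ F` but `v ξ` is not in the value group of `F`, the valuation of
`∑ c i * ξ ^ n i` (`c i ∈ F`, the `n i` pairwise incongruent modulo `p`) is the valuation of one
of its nonzero terms. -/
theorem exists_val_eq_of_kummer_sum (F : Subfield K) {p : ℕ} (hp : p.Prime) {ξ : K}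
    (hξ0 : ξ ≠ 0) (hξp : ξ ^ p ∈ F) (hξ : ¬ InValGroup v F (v ξ))
    {ι : Type*} (s : Finset ι) (c : ι → K) (n : ι → ℕ) (hc : ∀ i ∈ s, c i ∈ F)
    (hn : ∀ i ∈ s, ∀ j ∈ s, i ≠ j → ¬ (n i ≡ n j [MOD p]))
    (hD : ∑ i ∈ s, c i * ξ ^ n i ≠ 0) :
    ∃ i ∈ s, c i ≠ 0 ∧ v (∑ i ∈ s, c i * ξ ^ n i) = v (c i) * v ξ ^ n i := by
  classical
  have hg0 : v ξ ≠ 0 := (Valuation.ne_zero_iff v).mpr hξ0
  have hgp : InValGroup v F (v ξ ^ p) := by
    rw [← map_pow]
    exact inValGroup_val hξp (pow_ne_zero p hξ0)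
  set s' := s.filter (fun i => c i ≠ 0) with hs'
  have hsum : ∑ i ∈ s, c i * ξ ^ n i = ∑ i ∈ s', c i * ξ ^ n i := by
    rw [hs', Finset.sum_filter]
    refine Finset.sum_congr rfl (fun i _ => ?_)
    by_cases h : c i = 0
    · simp [h]
    · simp [h]
  have hne : s'.Nonempty := by
    by_contra h
    rw [Finset.not_nonempty_iff_eq_empty] at h
    rw [hsum, h, Finset.sum_empty] at hD
    exact hD rfl
  -- the key: distinct valuations
  have key : ∀ i ∈ s', ∀ j ∈ s', n i < n j →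
      v (c i * ξ ^ n i) ≠ v (c j * ξ ^ n j) := by
    intro i hi j hj hlt hv
    rw [hs', Finset.mem_filter] at hi hj
    apply hξ
    have hndvd : ¬ p ∣ (n j - n i) := by
      intro hd
      have hij : i ≠ j := by
        rintro rfl
        exact lt_irrefl _ hlt
      apply hn i hi.1 j hj.1 hij
      exact ((Nat.modEq_iff_dvd' hlt.le).mpr hd)
    refine inValGroup_of_pow hg0 hp hndvd hgp ?_
    have hci : v (c i) ≠ 0 := (Valuation.ne_zero_iff v).mpr hi.2
    have hcj : v (c j) ≠ 0 := (Valuation.ne_zero_iff v).mpr hj.2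
    have h1 : v ξ ^ (n j - n i) = v (c i) / v (c j) := by
      rw [map_mul, map_mul, map_pow, map_pow] at hv
      have h2 : v ξ ^ n j = v ξ ^ (n j - n i) * v ξ ^ n i := by
        rw [← pow_add, Nat.sub_add_cancel hlt.le]
      rw [h2] at hv
      have h3 : v ξ ^ n i ≠ 0 := pow_ne_zero _ hg0
      have h4 : v (c i) = v (c j) * v ξ ^ (n j - n i) := by
        have := mul_right_cancel₀ h3 (by rw [hv, mul_assoc] :
          v (c i) * v ξ ^ n i = (v (c j) * v ξ ^ (n j - n i)) * v ξ ^ n i)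
        exact this
      rw [h4, mul_comm, mul_div_assoc, div_self hcj, mul_one]
    rw [h1]
    exact (inValGroup_val (hc i hi.1) hi.2).div (inValGroup_val (hc j hj.1) hj.2)
  have hinj : ∀ i ∈ s', ∀ j ∈ s', i ≠ j → v (c i * ξ ^ n i) ≠ v (c j * ξ ^ n j) := by
    intro i hi j hj hij
    have hi' := (Finset.mem_filter.mp hi).1
    have hj' := (Finset.mem_filter.mp hj).1
    rcases lt_trichotomy (n i) (n j) with h | h | h
    · exact key i hi j hj h
    · exact absurd (by rw [h] : n i ≡ n j [MOD p]) (hn i hi' j hj' hij)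
    · exact fun e => key j hj i hi h e.symm
  obtain ⟨i, hi, hv⟩ := exists_val_sum_eq s' (fun i => c i * ξ ^ n i) hne hinj
  refine ⟨i, (Finset.mem_filter.mp hi).1, (Finset.mem_filter.mp hi).2, ?_⟩
  rw [hsum, hv, map_mul, map_pow]

/-- **Main valuation lemma.**  `p` an odd prime, `ξ ^ p ∈ F`, `D = ∑ c i * ξ ^ n i ≠ 0` with
`c i ∈ F`, the exponents `n i` pairwise incongruent modulo `p` and prime to `p` where `c i ≠ 0`.
If `v D ^ 2` is in the value group of `F`, then so is `v ξ`. -/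
theorem inValGroup_of_kummer_sum_sq (F : Subfield K) {p : ℕ} (hp : p.Prime) (hp2 : p ≠ 2)
    {ξ : K} (hξ0 : ξ ≠ 0) (hξp : ξ ^ p ∈ F)
    {ι : Type*} (s : Finset ι) (c : ι → K) (n : ι → ℕ) (hc : ∀ i ∈ s, c i ∈ F)
    (hn : ∀ i ∈ s, ∀ j ∈ s, i ≠ j → ¬ (n i ≡ n j [MOD p]))
    (hn0 : ∀ i ∈ s, c i ≠ 0 → ¬ p ∣ n i)
    (hD : ∑ i ∈ s, c i * ξ ^ n i ≠ 0)
    (hsq : InValGroup v F (v (∑ i ∈ s, c i * ξ ^ n i) ^ 2)) :
    InValGroup v F (v ξ) := by
  by_contra hξ
  obtain ⟨i, hi, hci, hv⟩ := exists_val_eq_of_kummer_sum F hp hξ0 hξp hξ s c n hc hn hD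
  have hg0 : v ξ ≠ 0 := (Valuation.ne_zero_iff v).mpr hξ0
  have hgp : InValGroup v F (v ξ ^ p) := by
    rw [← map_pow]
    exact inValGroup_val hξp (pow_ne_zero p hξ0)
  apply hξ
  have hndvd : ¬ p ∣ 2 * n i := by
    intro hd
    rcases (Nat.Prime.dvd_mul hp).mp hd with h | h
    · exact hp2 ((Nat.prime_dvd_prime_iff_eq hp Nat.prime_two).mp h)
    · exact hn0 i hi hci h
  refine inValGroup_of_pow hg0 hp hndvd hgp ?_
  have hcv : v (c i) ≠ 0 := (Valuation.ne_zero_iff v).mpr hci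
  have h1 : v ξ ^ (2 * n i) = v (∑ i ∈ s, c i * ξ ^ n i) ^ 2 / v (c i) ^ 2 := by
    rw [hv, mul_pow, ← pow_mul, mul_comm (n i) 2, mul_comm (v (c i) ^ 2), mul_div_assoc,
      div_self (pow_ne_zero 2 hcv), mul_one]
  rw [h1]
  exact hsq.div ((inValGroup_val (hc i hi) hci).pow 2)

end Fermat.Agent.Ribet.H967
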