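import Fermat.Agent.Ribet.H967.TameFixed
import Fermat.Agent.Ribet.H472.DictPure

/-!
# RIBET row 38, WALL-p, CoreOut: TAME is CLOSED (helper967)

* `tameFixed : TameFixedStatement`            (VERBATIM, unconditional);
* `tame      : H704.CoreOut.TameStatement`    (VERBATIM, unconditional).

`= tameFixed_of_dict` / `tame_of_dict` (`Ribet/H967/TameFixed.lean`) applied to
`H472.dictPure : H704.CoreOut.DictPureStatement`.
-/

set_option autoImplicit false

namespace Fermat.Agent.Ribet.H967.Tame

/-- **TAME, inertia-fixed core** (unconditional). -/
theorem tameFixed : TameFixedStatement :=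
  tameFixed_of_dict Fermat.Agent.Ribet.H472.dictPure

/-- **TAME** (unconditional). -/
theorem tame : Fermat.Agent.Ribet.H704.CoreOut.TameStatement :=
  tame_of_fixed tameFixed

end Fermat.Agent.Ribet.H967.Tame
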