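import Fermat.Agent.Ribet.H967.TameReduce
import Fermat.Agent.Ribet.H868.TameChart
import Fermat.Agent.Ribet.H464.UnitPairExp
import Fermat.Agent.Ribet.H873.UnitPairMod
import Fermat.Agent.S36.H756.DescPic
import Fermat.Agent.S36.H756.DescField
import Fermat.Agent.S36.Eng.H189.Unr
import Fermat.Agent.S35.G.H862.Model
import Fermat.Agent.A2.Mod.H553.VzeroNe
import Fermat.Agent.A2.Mod.H751.Fricke
import Fermat.Agent.A2.Mod.H31.Deg
import Fermat.Agent.A2.Mod.H142.S2Final
import Fermat.Agent.A2.Mod.H216.GoodRedAll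
import Fermat.Agent.A2.T1.H669.T2
import Fermat.Agent.Lib.HI.H864.Modular
import Fermat.Agent.S18.H905.ConstInst

/-!
# RIBET row 38, WALL-p, CoreOut: the INERTIA-FIXED core of TAME from DICT-PURE (helper967)

* `tameFixed_of_dict : H704.CoreOut.DictPureStatement → TameFixedStatement`;
* `tame_of_dict      : H704.CoreOut.DictPureStatement → H704.CoreOut.TameStatement`
  (`= tame_of_fixed ∘ tameFixed_of_dict`).

Proof of `tameFixed_of_dict`.  `x` a `p`-torsion class of `J₀(pM')` fixed by the inertia group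
`I` at `A`.
1. DESC (`S36.H756.exists_fixed_kummer_rep`, `descendsTo_fixedField_of_fixed`): `x` has a Kummer
   generator `f = ι y`, `y ∈ F_E(M'p)`, `E = ℚ̄^I` the inertia field, and `p ∣ div y`
   (`A2.T1.H669.divisibleDiv_of_ord`).
2. `E` is a good level (`S36.Eng.H189.unramified_inertiaField`), absolutely unramified: the unit
   pair `D D' = w ^ (12 e)` of the standard chart `Bf` (`H464.exists_unitPair_cut_exp464`,
   `D = Δ(t)/Δ(t^p)`) has `e = 1`, and `12` is prime to `p ≥ 5`.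
3. TAME chart purity (`H868.pureAt_tame`): `G = y ^ 12 · D ^ (v₁ - v₂)` is pure at every closed
   point of the special fibre of `Bf`.
4. DICT-PURE: `NodeGen (ι G)`, and `ι G · 𝔇 ^ b = f ^ 12 · 𝔇 ^ a` for the modular unit
   `𝔇 = Δ(t^p)/Δ(t) = (ι D)⁻¹`.
-/

set_option autoImplicit false
set_option synthInstance.maxHeartbeats 400000
set_option maxHeartbeats 1600000
set_option linter.unusedSectionVars false
set_option linter.style.haveILetI false
set_option linter.unusedVariables false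

noncomputable section

namespace Fermat.Agent.Ribet.H967.Tame

open AlgebraicCurve ModularCurve HahnSeries
open Fermat.Agent.S24 Fermat.Agent.A2.H708 Fermat.Agent.A2.H528
open Fermat.Agent.Ribet.Spec Fermat.Agent.Ribet.H944.Wall Fermat.Agent.Ribet.H884
open Fermat.Agent.Ribet.H704 Fermat.Agent.Ribet.H704.CoreOut
open Fermat.Agent.A2

section Core

variable {M p : ℕ} [NeZero M] [NeZero p] {A : ValuationSubring Kbar}
  {E : IntermediateField ℚ Kbar}

/-- At an absolutely unramified level the ramification index is `1`. -/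
theorem ramIdx_eq_one967 {w : Mod.RE A E} (hw : Irreducible w)
    (hunr : ∀ e : E, (e : Kbar) ∈ A.nonunits → (e : Kbar) * ((p : Kbar))⁻¹ ∈ A)
    {e : ℕ} (he : 0 < e) (hass : Associated ((p : ℕ) : Mod.RE A E) (w ^ e)) : e = 1 := by
  have hp0 : (p : E) ≠ 0 := Nat.cast_ne_zero.mpr (NeZero.ne p)
  have hw0 : (w : E) ≠ 0 := fun h => hw.ne_zero (Subtype.ext h)
  have hwnu : ((w : E) : Kbar) ∈ A.nonunits := by
    rw [ValuationSubring.mem_nonunits_iff]
    by_contra hlt
    have hle : A.valuation ((w : E) : Kbar) ≤ 1 := (A.valuation_le_one_iff _).2 w.2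
    have heq : A.valuation ((w : E) : Kbar) = 1 := le_antisymm hle (not_lt.mp hlt)
    have hinv : ((w : E)⁻¹ : E) ∈ Mod.RE A E := by
      show algebraMap E Kbar ((w : E)⁻¹) ∈ A
      rw [map_inv₀, ← A.valuation_le_one_iff, map_inv₀]
      have e : A.valuation (algebraMap E Kbar (w : E)) = 1 := heq
      rw [e, inv_one]
    apply hw.not_isUnit
    refine IsUnit.of_mul_eq_one (⟨(w : E)⁻¹, hinv⟩ : Mod.RE A E) ?_
    apply Subtype.ext
    show (w : E) * (w : E)⁻¹ = 1
    exact mul_inv_cancel₀ hw0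
  have hmem : (w : E) * (p : E)⁻¹ ∈ Mod.RE A E := by
    show algebraMap E Kbar ((w : E) * (p : E)⁻¹) ∈ A
    rw [map_mul, map_inv₀, map_natCast]
    exact hunr (w : E) hwnu
  set r : Mod.RE A E := ⟨(w : E) * (p : E)⁻¹, hmem⟩ with hr
  have hwr : w = ((p : ℕ) : Mod.RE A E) * r := by
    apply Subtype.ext
    show (w : E) = (p : E) * ((w : E) * (p : E)⁻¹)
    field_simp
  obtain ⟨u, hu⟩ := hass
  by_contra hne
  obtain ⟨k, rfl⟩ : ∃ k, e = k + 2 := ⟨e - 2, by omega⟩
  have h1 : w * (u : Mod.RE A E) = w * (w ^ (k + 1) * r) := by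
    calc w * (u : Mod.RE A E) = ((p : ℕ) : Mod.RE A E) * u * r := by rw [hwr]; ring
      _ = w ^ (k + 2) * r := by rw [hu]
      _ = w * (w ^ (k + 1) * r) := by ring
  have h2 : (u : Mod.RE A E) = w ^ (k + 1) * r := mul_left_cancel₀ hw.ne_zero h1
  have h3 : IsUnit (w * (w ^ k * r)) := by
    have : w * (w ^ k * r) = (u : Mod.RE A E) := by rw [h2]; ring
    rw [this]
    exact u.isUnit
  exact hw.not_isUnit (isUnit_of_mul_isUnit_left h3)

/-- **TAME chart core** at an absolutely unramified good level `E`: for `y ∈ F_E(Mp)ˣ` with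
`p ∣ div y` there is `k : ℤ` such that `y ^ 12 · D ^ k` is pure at every closed point of the
special fibre of the finite chart, `D = Δ(t)/Δ(t^p)`. -/
theorem tame_chart_core967 (hp : p.Prime) (hp5 : 5 ≤ p) (hpM : ¬ p ∣ M)
    (hA : A.LiesOverPrime p) (hE : GoodField A E)
    (hunr : ∀ e : E, (e : Kbar) ∈ A.nonunits → (e : Kbar) * ((p : Kbar))⁻¹ ∈ A)
    (y : Mod.FE E (M * p)) (hy0 : y ≠ 0) (hdiv : DivisibleDiv E p y) :
    ∃ (w : Mod.RE A E) (D₁ : Mod.FE E (M * p)) (k : ℤ), Mod.Setting A E M p w ∧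
      ((D₁ : Mod.FE E (M * p)) : LaurentSeries E) =
        Fermat.Agent.S36.H438.castE E (Fermat.Agent.S28.H589.unitL' p) ∧
      D₁ ≠ 0 ∧ ChartPure A E M p w (y ^ 12 * D₁ ^ k) := by
  classical
  haveI hdvr : IsDiscreteValuationRing (Mod.RE A E) := hE.dvr
  obtain ⟨w, hw⟩ := IsDiscreteValuationRing.exists_irreducible (Mod.RE A E)
  have hM0 : M ≠ 0 := NeZero.ne M
  have hN : M * p ≠ 0 := Nat.mul_ne_zero hM0 hp.ne_zero
  have hSet : Mod.Setting A E M p w := ⟨hp, hpM, hM0, hA, hdvr, hw⟩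
  obtain ⟨VM, hVM⟩ := Mod.H553.vinfExists A E M hM0 hdvr
  obtain ⟨V, hV⟩ := Mod.H553.vinfExists A E (M * p) hN hdvr
  obtain ⟨W, hW⟩ := Mod.H751.frickeExists E (M * p) hN
  have hgood : Mod.GoodRedHyp A E M :=
    Top.H216.goodRedStatement A E M p hp hpM (fun h => by omega) (fun h => by omega) hA hE
  obtain ⟨c, hc₁, hc₂⟩ := Fermat.Agent.Ribet.H873.exists_ssChart_cut873 w hSet
    (Fermat.Agent.S35.G.H862.s1 A E M p w) (Mod.H142.s2 A E M p w)
    (Fermat.Agent.S35.G.H862.s3 A E M p w) VM V W hVM hV hW (hgood w VM hw hVM).1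
  obtain ⟨e, D, D', he, hass, hmul, hD, hD', hexp⟩ :=
    Fermat.Agent.Ribet.H464.exists_unitPair_cut_exp464 hSet hV hW c.p₁ c.p₂ hc₁ hc₂
  have he1 : e = 1 := ramIdx_eq_one967 hw hunr he hass
  subst he1
  -- the chart context
  obtain ⟨hx, hfr, hconst⟩ := Mod.H31.deg E M p hp hpM
  have hpos : 0 < Module.finrank
      (IntermediateField.adjoin E ({Mod.xE E M p} : Set (Mod.FE E (M * p))))
      (Mod.FE E (M * p)) := by
    rw [hfr]
    have h1 := Mod.dedekindPsi_pos_of_ne_zero M hM0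
    positivity
  have hfin : FiniteDimensional
      (IntermediateField.adjoin E ({Mod.xE E M p} : Set (Mod.FE E (M * p))))
      (Mod.FE E (M * p)) := Module.finite_of_finrank_pos hpos
  have hCf : Alg.ChartCtx E w (Mod.xE E M p) (Mod.chartAlg A E (M * p) (Mod.xE E M p)) :=
    ⟨hw, hx, hfin, hconst, fun _ => Iff.rfl⟩
  have hcop : Nat.Coprime (12 * 1) p := by
    rw [Nat.coprime_comm, Nat.Prime.coprime_iff_not_dvd hp]
    intro h
    have := Nat.le_of_dvd (by norm_num) h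
    have h43 : p ∣ 4 * 3 := h
    rcases (Nat.Prime.dvd_mul hp).mp h43 with h4 | h3
    · have := Nat.le_of_dvd (by norm_num) h4
      omega
    · have := Nat.le_of_dvd (by norm_num) h3
      omega
  obtain ⟨v₁, v₂, hv₁, hv₂⟩ := Fermat.Agent.Ribet.H868.exists_valAt_chart (E := E) w
    (Mod.xE E M p) _ hCf c y hy0
  have hD0 : (D : Mod.FE E (M * p)) ≠ 0 := by
    intro h0
    apply hD
    have : D = 0 := Subtype.ext h0
    rw [this]
    exact Ideal.zero_mem _
  refine ⟨w, (D : Mod.FE E (M * p)), v₁ - v₂, hSet, hexp, hD0, fun n hn hwn => ?_⟩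
  obtain ⟨d, hd0, hU, -, -⟩ := Fermat.Agent.Ribet.H868.pureAt_tame (E := E) p (12 * 1) hp.pos
    (by norm_num) hcop w (Mod.xE E M p) _ hCf c D D' hmul hD hD' y hy0 hdiv v₁ v₂ hv₁ hv₂ n
    hn.isPrime hwn
  exact ⟨d, -((12 * 1 : ℕ) : ℤ) * v₁, hd0, hU⟩

end Core

section Top

/-- `12` is not divisible by a prime `p ≥ 5`. -/
theorem not_dvd_twelve967 {p : ℕ} (hp : p.Prime) (hp5 : 5 ≤ p) : ¬ p ∣ 12 := by
  intro h
  have h43 : p ∣ 4 * 3 := h
  rcases (Nat.Prime.dvd_mul hp).mp h43 with h4 | h3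
  · have := Nat.le_of_dvd (by norm_num) h4
    omega
  · have := Nat.le_of_dvd (by norm_num) h3
    omega

/-- **The slope relation from a Kummer generator defined over an absolutely unramified good
level `E`**, given DICT-PURE. -/
theorem slopeProp_of_descent967 (hDict : DictPureStatement) (p M' : ℕ) [NeZero M'] [NeZero p]
    [NeZero (p * M')] (hp : p.Prime) (hp5 : 5 ≤ p) (hpM : ¬ p ∣ M')
    (A : ValuationSubring Kbar) (hA : A.LiesOverPrime p) (E : IntermediateField ℚ Kbar)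
    (hE : GoodField A E)
    (hunr : ∀ e : E, (e : Kbar) ∈ A.nonunits → (e : Kbar) * ((p : Kbar))⁻¹ ∈ A)
    (x : JZero (p * M')) (f : FF (p * M')) (hK : IsKummerGen (p * M') p f x)
    (y₀ : LaurentSeries E)
    (hy₀mem : y₀ ∈ laurentBaseChange E (modularFunctionFieldFull (p * M')))
    (hy₀ : coeffMap (algebraMap E Kbar) y₀ = (f : LaurentSeries Kbar)) :
    SlopeProp p M' A x := by
  classical
  obtain ⟨hf0, D, hDx, hord⟩ := hK
  -- transfer to the level `M' * p`
  have hmem' : y₀ ∈ Mod.FE E (M' * p) := by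
    have h := hy₀mem
    rwa [Nat.mul_comm p M'] at h
  have hy₀0 : y₀ ≠ 0 := by
    rintro rfl
    rw [map_zero] at hy₀
    exact hf0 (Subtype.ext hy₀.symm)
  have hy0 : (⟨y₀, hmem'⟩ : Mod.FE E (M' * p)) ≠ 0 := fun h => hy₀0 (congrArg Subtype.val h)
  have hdiv : DivisibleDiv E p (⟨y₀, hmem'⟩ : Mod.FE E (M' * p)) := by
    have key : ∀ (N : ℕ) (hN : p * M' = N)
        (hm : y₀ ∈ laurentBaseChange E (modularFunctionFieldFull N)),
        DivisibleDiv E p (⟨y₀, hm⟩ : laurentBaseChange E (modularFunctionFieldFull N)) := by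
      intro N hN hm
      subst hN
      refine T1.H669.divisibleDiv_of_ord E (modularFunctionFieldFull (p * M')) p ⟨y₀, hm⟩
        (fun h => hy₀0 (congrArg Subtype.val h)) (fun v => ?_)
      have e : T1.H669.iota E (modularFunctionFieldFull (p * M')) ⟨y₀, hm⟩ = f :=
        Subtype.ext hy₀
      rw [e, hord v]
      exact dvd_mul_right _ _
    exact key (M' * p) (Nat.mul_comm p M') hmem'
  -- 2-3. the chart core
  obtain ⟨w, D₁, k, hSet, hexp, hD₁0, hpure⟩ :=
    tame_chart_core967 hp hp5 hpM hA hE hunr ⟨y₀, hmem'⟩ hy0 hdiv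
  -- 4. the modular unit
  obtain ⟨Dm, hDm, hDm0⟩ := Fermat.Agent.Ribet.H464.exists_isModUnit464 p M'
  have hinv : ((Dm⁻¹ : FF (p * M')) : LaurentSeries Kbar) =
      coeffMap (algebraMap E Kbar) ((D₁ : Mod.FE E (M' * p)) : LaurentSeries E) :=
    Fermat.Agent.Ribet.H464.isModUnit_inv_coe464 hDm hexp
  have hG' : ((f ^ 12 * (Dm⁻¹) ^ k : FF (p * M')) : LaurentSeries Kbar) =
      coeffMap (algebraMap E Kbar)
        (((⟨y₀, hmem'⟩ : Mod.FE E (M' * p)) ^ 12 * D₁ ^ k : Mod.FE E (M' * p)) :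
          LaurentSeries E) := by
    have h1 : ((f ^ 12 * (Dm⁻¹) ^ k : FF (p * M')) : LaurentSeries Kbar) =
        (f : LaurentSeries Kbar) ^ 12 * ((Dm⁻¹ : FF (p * M')) : LaurentSeries Kbar) ^ k := by
      rw [IntermediateField.coe_mul, IntermediateField.coe_pow]
      exact congrArg (fun z => (f : LaurentSeries Kbar) ^ 12 * z)
        (map_zpow₀ (modularFunctionFieldBar (p * M')).val (Dm⁻¹) k)
    have h2 : (((⟨y₀, hmem'⟩ : Mod.FE E (M' * p)) ^ 12 * D₁ ^ k : Mod.FE E (M' * p)) :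
        LaurentSeries E) = y₀ ^ 12 * ((D₁ : Mod.FE E (M' * p)) : LaurentSeries E) ^ k := by
      rw [IntermediateField.coe_mul, IntermediateField.coe_pow]
      exact congrArg (fun z => y₀ ^ 12 * z) (map_zpow₀ (Mod.FE E (M' * p)).val D₁ k)
    rw [h1, h2, map_mul, map_pow, map_zpow₀, hy₀, hinv]
  have hG0 : ((⟨y₀, hmem'⟩ : Mod.FE E (M' * p)) ^ 12 * D₁ ^ k) ≠ 0 :=
    mul_ne_zero (pow_ne_zero _ hy0) (zpow_ne_zero _ hD₁0)
  have hNG : NodeGen p M' A (f ^ 12 * (Dm⁻¹) ^ k) :=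
    hDict p M' hp hpM A hA E w hSet hE _ _ hG0 hG' hpure
  refine ⟨f, Dm, f ^ 12 * (Dm⁻¹) ^ k, 12, (-k).toNat, k.toNat, ⟨hf0, D, hDx, hord⟩, hDm, hDm0,
    not_dvd_twelve967 hp hp5, ?_, hNG⟩
  have hk : (-k) + (k.toNat : ℤ) = ((-k).toNat : ℤ) := by
    have := Int.toNat_sub_toNat_neg k
    omega
  calc f ^ 12 * (Dm⁻¹) ^ k * Dm ^ k.toNat
      = f ^ 12 * (Dm ^ (-k) * Dm ^ (k.toNat : ℤ)) := by
        rw [inv_zpow', zpow_natCast]
        ring
    _ = f ^ 12 * Dm ^ ((-k).toNat : ℤ) := by rw [← zpow_add₀ hDm0, hk]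
    _ = f ^ 12 * Dm ^ (-k).toNat := by rw [zpow_natCast]

/-- **TAME, inertia-fixed core, from DICT-PURE.** -/
theorem tameFixed_of_dict (hDict : DictPureStatement) : TameFixedStatement := by
  intro p M' _ _ _ hp hp5 hpM A hA S a hNE x hx hex hfix
  haveI := Fermat.Agent.Lib.HI.H864.hasPrincipalDivisors_FF (p * M')
  have hconst : Fermat.Agent.S36.H756.ConstOfOrdZero Kbar
      (laurentBaseChange Kbar (modularFunctionFieldFull (p * M'))) := by
    intro u hu0 hu
    obtain ⟨c, hc⟩ := Fermat.Agent.S18.H905.const_bar (p * M') u hu0 hu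
    exact ⟨c, hc.symm⟩
  obtain ⟨D, f, hf0, hDx, hord, hfixf⟩ :=
    Fermat.Agent.S36.H756.exists_fixed_kummer_rep (F₀ := modularFunctionFieldFull (p * M'))
      hconst (A.inertiaSubgroupIn ℚ) p x hx.1 hfix
  obtain ⟨y₀, hy₀mem, hy₀⟩ :=
    Fermat.Agent.S36.H756.descendsTo_fixedField_of_fixed (A.inertiaSubgroupIn ℚ) f hfixf
  obtain ⟨hE, hunr⟩ := Fermat.Agent.S36.Eng.H189.unramified_inertiaField p hp A hA
  exact slopeProp_of_descent967 hDict p M' hp hp5 hpM A hA _ hE hunr x f ⟨hf0, D, hDx, hord⟩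
    y₀ hy₀mem hy₀

/-- **TAME from DICT-PURE.** -/
theorem tame_of_dict (hDict : DictPureStatement) : TameStatement :=
  tame_of_fixed (tameFixed_of_dict hDict)

end Top

end Fermat.Agent.Ribet.H967.Tame

end
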