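import Fermat.Agent.Ribet.H967.TameReduce

/-!
# WALL-p, CORE-OUT: TAME / WILD glue in GENERIC form (helper967)

`p`-generic (only `p ≠ 2`) and UNIT-AGNOSTIC twins of `H967.Tame.tame_of_fixed` and of
`H704.CoreOut.coreOutNE_of_tame_wild`, for the wall at `p = 3` (S59 moonshot, cell (A)), where the
Δ-unit of exponent `12` is replaced by a unit of exponent prime to `3`.

* `tame_of_fixed_gen`: for ANY predicate `SP` on `J₀(pM')` that is invariant under translation by
  the split part, `SP` for inertia-fixed new eigenclasses implies `SP` for all classes satisfying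
  the TAME hypotheses (cocycle trick `exists_fixed_translate`, `p ≠ 2`).
* `coreOut_of_tame_wild_gen`: TAME + WILD ⟹ CORE-OUT for any predicate.
* `SlopePropQ`: `H884.SlopeProp` with the property `IsModUnit` of the unit `D` replaced by an
  abstract predicate `Q D`; `slopePropQ_add_of_mem_splitPart` is the invariance needed above;
  `slopePropQ_isModUnit` identifies the case on main.
* `tameQ_of_fixedQ`, `coreOutQ_of_fixedQ_wild`: the instances for `SlopePropQ`.
-/

set_option autoImplicit false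
set_option synthInstance.maxHeartbeats 400000
set_option maxHeartbeats 1000000
set_option linter.unusedSectionVars false

noncomputable section

namespace Fermat.Agent.Ribet.H967.TameGen

open AlgebraicCurve ModularCurve HahnSeries
open Fermat.Agent.S24 Fermat.Agent.A2.H708 Fermat.Agent.A2.H528
open Fermat.Agent.Ribet.Spec Fermat.Agent.Ribet.H944.Wall Fermat.Agent.Ribet.H884
open Fermat.Agent.Ribet.H704 Fermat.Agent.Ribet.H704.CoreOut
open Fermat.Agent.Ribet.H967.Tame

local notation "Qb" => AlgebraicClosure ℚ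

variable {p M' : ℕ} [NeZero M'] [NeZero p] [NeZero (p * M')]

/-! ## The generic reduction -/

/-- **TAME from its inertia-fixed core, generic form**: `p` any odd prime, `SP` any predicate
invariant under translation by the split part. -/
theorem tame_of_fixed_gen (hp : p.Prime) (hp2 : p ≠ 2) (hpM : ¬ p ∣ M')
    (A : ValuationSubring Qb) (hA : A.LiesOverPrime p)
    (SP : JZero (p * M') → Prop)
    (hinv : ∀ x y : JZero (p * M'), SP x → y ∈ splitPart p M' A → SP (x + y))
    (S : Finset ℕ) (a : ℕ → ℤ)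
    (hcore : ∀ x' : JZero (p * M'), IsNewTors p M' x' → EigenAt (p * M') S a x' →
      (∀ σ ∈ A.inertiaSubgroupIn ℚ, σ • x' = x') → SP x')
    (x t : JZero (p * M'))
    (hx : IsNewTors p M' x) (hex : EigenAt (p * M') S a x)
    (ht : IsNewTors p M' t) (het : EigenAt (p * M') S a t)
    (hχ : ∀ σ ∈ A.inertiaSubgroupIn ℚ, ∀ c : ℕ, CycloAt p σ c → σ • t = c • t)
    (hsh : ∀ σ ∈ A.inertiaSubgroupIn ℚ, ∃ n : ℕ, σ • x = x + n • t)
    (htame : ∀ σ ∈ A.inertiaSubgroupIn ℚ, CycloAt p σ 1 → σ • x = x) :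
    SP x := by
  obtain ⟨z, hz⟩ := exists_fixed_translate hp hp2 A hA x t ht.1 hχ hsh htame
  have htS : t ∈ splitPart p M' A :=
    Fermat.Agent.Ribet.H39.mem_splitPart_of_cyclo p M' hp hp2 hpM A hA t ht.1 hχ
  have hx' : IsNewTors p M' (x + z • t) := by
    obtain ⟨h1, h2, h3⟩ := hx
    obtain ⟨k1, k2, k3⟩ := ht
    refine ⟨?_, ?_, ?_⟩
    · rw [nsmul_add, h1, smul_comm (p : ℕ) z t, k1, smul_zero, add_zero]
    · rw [map_add, map_zsmul, h2, k2, smul_zero, add_zero]
    · rw [map_add, map_zsmul, h3, k3, smul_zero, add_zero]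
  have hex' : EigenAt (p * M') S a (x + z • t) := by
    intro ℓ hℓ
    rw [map_add, map_zsmul, hex ℓ hℓ, het ℓ hℓ, zsmul_add, smul_comm z]
  have hS' := hcore (x + z • t) hx' hex' hz
  have h := hinv _ _ hS'
    ((splitPart p M' A).neg_mem ((splitPart p M' A).zsmul_mem htS z))
  rwa [add_neg_cancel_right] at h

/-- **CORE-OUT from TAME and WILD, generic form** (any predicate, any prime). -/
theorem coreOut_of_tame_wild_gen (A : ValuationSubring Qb) (SP : JZero (p * M') → Prop)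
    (x : JZero (p * M'))
    (hT : (∀ σ ∈ A.inertiaSubgroupIn ℚ, CycloAt p σ 1 → σ • x = x) → SP x)
    (hW : ∀ σ₀ ∈ A.inertiaSubgroupIn ℚ, CycloAt p σ₀ 1 → σ₀ • x ≠ x → SP x) : SP x := by
  by_cases h : ∀ σ ∈ A.inertiaSubgroupIn ℚ, CycloAt p σ 1 → σ • x = x
  · exact hT h
  · push Not at h
    obtain ⟨σ₀, hσ₀, hσ₀1, hσ₀x⟩ := h
    exact hW σ₀ hσ₀ hσ₀1 hσ₀x

/-! ## The slope property with an abstract unit -/

/-- `H884.SlopeProp` with `IsModUnit p M' D` replaced by an abstract property `Q D` of the unit. -/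
def SlopePropQ (p M' : ℕ) [NeZero p] [NeZero (p * M')] (A : ValuationSubring Qb)
    (Q : FF (p * M') → Prop) (x : JZero (p * M')) : Prop :=
  ∃ (f D G : FF (p * M')) (n a b : ℕ), IsKummerGen (p * M') p f x ∧ Q D ∧
    D ≠ 0 ∧ ¬ p ∣ n ∧ G * D ^ b = f ^ n * D ^ a ∧ NodeGen p M' A G

/-- The case on main: the Δ-unit. -/
theorem slopePropQ_isModUnit (A : ValuationSubring Qb) (x : JZero (p * M')) :
    SlopePropQ p M' A (IsModUnit p M') x ↔ SlopeProp p M' A x := Iff.rfl

/-- Monotonicity in the unit property. -/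
theorem SlopePropQ.mono {A : ValuationSubring Qb} {Q Q' : FF (p * M') → Prop}
    (h : ∀ D, Q D → Q' D) {x : JZero (p * M')} (hx : SlopePropQ p M' A Q x) :
    SlopePropQ p M' A Q' x := by
  obtain ⟨f, D, G, n, a, b, hK, hD, hD0, hn, hrel, hG⟩ := hx
  exact ⟨f, D, G, n, a, b, hK, h D hD, hD0, hn, hrel, hG⟩

/-- `SlopePropQ` is invariant under translation by the split part. -/
theorem slopePropQ_add_of_mem_splitPart {A : ValuationSubring Qb} {Q : FF (p * M') → Prop}
    {x y : JZero (p * M')} (hx : SlopePropQ p M' A Q x) (hy : y ∈ splitPart p M' A) :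
    SlopePropQ p M' A Q (x + y) := by
  obtain ⟨f, D, G, n, a, b, hK, hD, hD0, hn, hrel, hG⟩ := hx
  obtain ⟨g, hgK, hgS⟩ := mem_splitSet_of_mem_splitPart hy
  refine ⟨f * g, D, G * g ^ n, n, a, b, hK.mul hgK, hD, hD0, hn, ?_,
    hG.mul ((nodeGen_of_splitGen967 hgS).pow n)⟩
  rw [mul_pow]
  linear_combination (g ^ n) * hrel

/-- **TAME with an abstract unit, from its inertia-fixed core** (`p` odd). -/
theorem tameQ_of_fixedQ (hp : p.Prime) (hp2 : p ≠ 2) (hpM : ¬ p ∣ M')
    (A : ValuationSubring Qb) (hA : A.LiesOverPrime p) (Q : FF (p * M') → Prop)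
    (S : Finset ℕ) (a : ℕ → ℤ)
    (hcore : ∀ x' : JZero (p * M'), IsNewTors p M' x' → EigenAt (p * M') S a x' →
      (∀ σ ∈ A.inertiaSubgroupIn ℚ, σ • x' = x') → SlopePropQ p M' A Q x')
    (x t : JZero (p * M'))
    (hx : IsNewTors p M' x) (hex : EigenAt (p * M') S a x)
    (ht : IsNewTors p M' t) (het : EigenAt (p * M') S a t)
    (hχ : ∀ σ ∈ A.inertiaSubgroupIn ℚ, ∀ c : ℕ, CycloAt p σ c → σ • t = c • t)
    (hsh : ∀ σ ∈ A.inertiaSubgroupIn ℚ, ∃ n : ℕ, σ • x = x + n • t)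
    (htame : ∀ σ ∈ A.inertiaSubgroupIn ℚ, CycloAt p σ 1 → σ • x = x) :
    SlopePropQ p M' A Q x :=
  tame_of_fixed_gen hp hp2 hpM A hA (SlopePropQ p M' A Q)
    (fun _ _ h hy => slopePropQ_add_of_mem_splitPart h hy) S a hcore x t hx hex ht het hχ hsh
    htame

/-- **CORE-OUT with an abstract unit** from the inertia-fixed TAME core and WILD (`p` odd). -/
theorem coreOutQ_of_fixedQ_wild (hp : p.Prime) (hp2 : p ≠ 2) (hpM : ¬ p ∣ M')
    (A : ValuationSubring Qb) (hA : A.LiesOverPrime p) (Q : FF (p * M') → Prop)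
    (S : Finset ℕ) (a : ℕ → ℤ)
    (hcore : ∀ x' : JZero (p * M'), IsNewTors p M' x' → EigenAt (p * M') S a x' →
      (∀ σ ∈ A.inertiaSubgroupIn ℚ, σ • x' = x') → SlopePropQ p M' A Q x')
    (x t : JZero (p * M'))
    (hx : IsNewTors p M' x) (hex : EigenAt (p * M') S a x)
    (ht : IsNewTors p M' t) (het : EigenAt (p * M') S a t)
    (hχ : ∀ σ ∈ A.inertiaSubgroupIn ℚ, ∀ c : ℕ, CycloAt p σ c → σ • t = c • t)
    (hsh : ∀ σ ∈ A.inertiaSubgroupIn ℚ, ∃ n : ℕ, σ • x = x + n • t)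
    (hwild : ∀ σ₀ ∈ A.inertiaSubgroupIn ℚ, CycloAt p σ₀ 1 → σ₀ • x ≠ x →
      SlopePropQ p M' A Q x) :
    SlopePropQ p M' A Q x :=
  coreOut_of_tame_wild_gen A (SlopePropQ p M' A Q) x
    (tameQ_of_fixedQ hp hp2 hpM A hA Q S a hcore x t hx hex ht het hχ hsh) hwild

end Fermat.Agent.Ribet.H967.TameGen

end
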